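import Fermat.Agent.H84.ORD.NodalModelAPI
import Fermat.Agent.H8.SS.Haupt4Field

/-!
# P-ORD, block B1, row B1-D-XY : the canonical coordinates at the nodes (helper3)

Level `M p`, `4 ∣ M`.  `H` the Hauptmodul of level `4` (`Fermat.Agent.H8.SS.h4S`), `H_p = H(q^p)`.

* `nmH`, `nmHp`, `nmX = H_p - H ^ p`, `nmYc = H - H_p ^ p` : elements of `F = FLb (M p)`, with
  their `q`-expansions `coe_nmH`, `coe_nmHp`, `coe_nmX`, `coe_nmYc`;
* `NmCrossRelStatement` : part (a) of `NmCrossStatement` for `X = nmX`, `Y = nmYc`;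
* `NmCrossOrdStatement` : part (c) : the places `Q`, `Q'` with `ord_Q (red_∞ Y) = 1`,
  `ord_Q' (red_0 X) = 1`;
* `nmCross_of_parts` : `NmCrossStatement` from (a), (b), (c).
-/

set_option autoImplicit false
set_option linter.unusedSectionVars false
set_option linter.unusedVariables false

noncomputable section

open AlgebraicCurve ModularCurve

namespace Fermat.Agent.H3.ORD

open Fermat.Agent.H72.FF Fermat.Agent.H66 Fermat.Agent.H84.ORD Fermat.Agent.H8.SS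

section Canon

variable (M p : ℕ) [NeZero M] [NeZero p] (h4 : 4 ∣ M)

/-- `H` : the Hauptmodul of level `4`, as an element of `F = ℚ̄(X₀(M p))` -/
def nmH : FLb (M * p) :=
  heckeAlphaBar Qb M p ⟨h4S Qb, h4S_mem_laurentBaseChange Qb M h4⟩

/-- `H_p = H(q^p)` -/
def nmHp : FLb (M * p) :=
  heckeBetaBar Qb M p ⟨h4S Qb, h4S_mem_laurentBaseChange Qb M h4⟩

/-- `X = H_p - H ^ p` : vanishes on `C_∞` -/
def nmX : FLb (M * p) := nmHp M p h4 - nmH M p h4 ^ p

/-- `Y = H - H_p ^ p` : vanishes on `C_0` -/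
def nmYc : FLb (M * p) := nmH M p h4 - nmHp M p h4 ^ p

theorem coe_nmH : ((nmH M p h4 : FLb (M * p)) : LaurentSeries Qb) = h4S Qb := by
  rw [nmH, coe_heckeAlphaBar]

theorem coe_nmHp : ((nmHp M p h4 : FLb (M * p)) : LaurentSeries Qb) = qExpand Qb p (h4S Qb) := by
  rw [nmHp, coe_heckeBetaBar]

theorem coe_nmX : ((nmX M p h4 : FLb (M * p)) : LaurentSeries Qb) =
    qExpand Qb p (h4S Qb) - h4S Qb ^ p := by
  show ((nmHp M p h4 : FLb (M * p)) : LaurentSeries Qb) -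
    ((nmH M p h4 : FLb (M * p)) : LaurentSeries Qb) ^ p = _
  rw [coe_nmH, coe_nmHp]

theorem coe_nmYc : ((nmYc M p h4 : FLb (M * p)) : LaurentSeries Qb) =
    h4S Qb - qExpand Qb p (h4S Qb) ^ p := by
  show ((nmH M p h4 : FLb (M * p)) : LaurentSeries Qb) -
    ((nmHp M p h4 : FLb (M * p)) : LaurentSeries Qb) ^ p = _
  rw [coe_nmH, coe_nmHp]

/-- `W H = H_p` -/
theorem nmW_nmH (hcop : Nat.Coprime M p) : nmW M p hcop (nmH M p h4) = nmHp M p h4 :=
  (nmW_spec M p hcop).2.1 _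

/-- `W H_p = H` -/
theorem nmW_nmHp (hcop : Nat.Coprime M p) : nmW M p hcop (nmHp M p h4) = nmH M p h4 :=
  (nmW_spec M p hcop).2.2.1 _

/-- `W X = Y` -/
theorem nmW_nmX (hcop : Nat.Coprime M p) : nmW M p hcop (nmX M p h4) = nmYc M p h4 := by
  rw [nmX, nmYc, map_sub, map_pow, nmW_nmH, nmW_nmHp]

/-- `W Y = X` -/
theorem nmW_nmYc (hcop : Nat.Coprime M p) : nmW M p hcop (nmYc M p h4) = nmX M p h4 := by
  rw [nmX, nmYc, map_sub, map_pow, nmW_nmH, nmW_nmHp]

end Canon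

/-- **(a)** the relation at the nodes, for the canonical coordinates. -/
def NmCrossRelStatement (M p : ℕ) [NeZero M] [NeZero p] : Prop :=
  ∀ (A : ValuationSubring Qb) (h : NmSetup M p A) (P : Place Qb (FLb (M * p))),
    NmIdealOo M p A P → NmIdealZero M p h.cop A P → nmY A P = nmJ (M * p) →
    ∃ d ψ : FLb (M * p),
      nmX M p h.four ∈ nmChart (M * p) A (nmJ (M * p)) ∧
      nmYc M p h.four ∈ nmChart (M * p) A (nmJ (M * p)) ∧
      d ∈ nmChart (M * p) A (nmJ (M * p)) ∧ ψ ∈ nmChart (M * p) A (nmJ (M * p)) ∧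
      d * nmX M p h.four * nmYc M p h.four = algebraMap Qb (FLb (M * p)) (p : Qb) * ψ ∧
      d ∉ nmMax A P ∧ ψ ∉ nmMax A P ∧
      nmX M p h.four ∈ nmMax A P ∧ nmYc M p h.four ∈ nmMax A P ∧
      (∃ hX : nmX M p h.four ∈ gaussOBar (M * p) A,
        nmRedOo (M * p) A ⟨nmX M p h.four, hX⟩ = 0) ∧
      (∃ hY : nmYc M p h.four ∈ nmV0 M p h.cop A,
        nmRed0 M p h.cop A ⟨nmYc M p h.four, hY⟩ = 0)

/-- **(b)** the nodes are not cuspidal. -/
def NmCrossNonCuspStatement (M p : ℕ) [NeZero M] [NeZero p] : Prop :=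
  ∀ (A : ValuationSubring Qb) (h : NmSetup M p A) (P : Place Qb (FLb (M * p))),
    NmIdealOo M p A P → NmIdealZero M p h.cop A P → nmY A P = nmJ (M * p)

/-- **(c)** the branches : places `Q` of `F_∞`, `Q'` of `F_0` over the centre of `P` at which
`red_∞ Y`, resp. `red_0 X`, is a uniformiser. -/
def NmCrossOrdStatement (M p : ℕ) [NeZero M] [NeZero p] : Prop :=
  ∀ (A : ValuationSubring Qb) (h : NmSetup M p A) (P : Place Qb (FLb (M * p))),
    NmIdealOo M p A P → NmIdealZero M p h.cop A P → nmY A P = nmJ (M * p) →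
    nmX M p h.four ∈ nmChart (M * p) A (nmJ (M * p)) →
    nmYc M p h.four ∈ nmChart (M * p) A (nmJ (M * p)) →
    nmX M p h.four ∈ nmMax A P → nmYc M p h.four ∈ nmMax A P →
    ∃ Q Q' : Place (kRes A) (NmF (M * p) A),
      NmSpecOo M p A (nmCentre A P) Q ∧ NmSpecZero M p h.cop A (nmCentre A P) Q' ∧
      (∃ hY : nmYc M p h.four ∈ gaussOBar (M * p) A,
        Q.ord (nmRedOo (M * p) A ⟨nmYc M p h.four, hY⟩) = 1) ∧
      (∃ hX : nmX M p h.four ∈ nmV0 M p h.cop A,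
        Q'.ord (nmRed0 M p h.cop A ⟨nmX M p h.four, hX⟩) = 1)

/-- **Assembly of `[XY]`** from (a), (b), (c). -/
theorem nmCross_of_parts {M p : ℕ} [NeZero M] [NeZero p]
    (ha : NmCrossRelStatement M p) (hb : NmCrossNonCuspStatement M p)
    (hc : NmCrossOrdStatement M p) : NmCrossStatement M p := by
  intro A h P hOo hZ
  have hy := hb A h P hOo hZ
  obtain ⟨d, ψ, hX, hY, hd, hψ, hrel, hdn, hψn, hXm, hYm, hXr, hYr⟩ := ha A h P hOo hZ hy
  obtain ⟨Q, Q', hQ, hQ', hoY, hoX⟩ := hc A h P hOo hZ hy hX hY hXm hYm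
  exact ⟨hy, nmX M p h.four, nmYc M p h.four, d, ψ, hX, hY, hd, hψ, hrel, hdn, hψn, hXm, hYm,
    hXr, hYr, Q, Q', hQ, hQ', hoY, hoX⟩

end Fermat.Agent.H3.ORD

end
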