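import Fermat.Agent.H3.ORD.NmCrossRel
import Fermat.Agent.H59.ORD.NmCrossOrd
import Fermat.Agent.H82.ORD.NmDvrAbs
import Fermat.Agent.H86.ORD.NmValOoClosed
import Fermat.Agent.H95.ORD.LocalW
import Fermat.Agent.H20.ORD.NmSoft

/-!
# P-ORD, block B1, row 1157 `[XY]` : CLOSED (helper3, final wiring)

`NmCrossStatement M p` (the nodes of the nodal model of `X₀(M p)` at the `ℚ̄`-level:
`d X Y = p ψ` with `X = H_p - H ^ p`, `Y = H - H_p ^ p`, and the two branches) is assembled from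

* (a) `Fermat.Agent.H3.ORD.nmCrossRel`, (b) `Fermat.Agent.H3.ORD.nmCrossNonCusp`
  (both unconditional, `Fermat/Agent/H3/ORD/NmCrossRel.lean`);
* (c) `Fermat.Agent.H59.ORD.nmCrossOrd` (helper59: every place over the centre of a node has
  `ord (red Y) = 1`, resp. `ord (red X) = 1`; only the EXISTENCE of the places is taken from
  [DVR]);
* [DVR] at `∞` : `Fermat.Agent.H82.ORD.nmDvrOo_of_val` (helper82) applied to
  `Fermat.Agent.H86.ORD.nmValOo` (helper86, helper41); [DVR] at `0` :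
  `Fermat.Agent.H95.ORD.nmDvrZero_of_oo'` (helper95, helper86);
* the soft fields `Fermat.Agent.H20.ORD.nmSoft` (helper20).

Main results:

* `nmx_crossOrd_of_dvr`, `nmx_cross_of_dvr` : (c), resp. `[XY]`, from [DVR] at `∞` alone;
* `nmx_dvrOo`, `nmx_dvrZero` : [DVR] for both components, unconditional;
* `nmx_crossOrd : NmCrossOrdStatement M p`, `nmx_cross : NmCrossStatement M p` : unconditional.
-/

set_option autoImplicit false

namespace Fermat.Agent.H3.ORD

open Fermat.Agent.H84.ORD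

/-- **(c) from [DVR] at `∞`.** -/
theorem nmx_crossOrd_of_dvr (M p : ℕ) [NeZero M] [NeZero p] (hDo : NmDvrOoStatement M p) :
    NmCrossOrdStatement M p :=
  Fermat.Agent.H59.ORD.nmCrossOrd (Fermat.Agent.H20.ORD.nmSoft M p) hDo
    (Fermat.Agent.H95.ORD.nmDvrZero_of_oo' M p (Fermat.Agent.H20.ORD.nmSoft M p) hDo)

/-- **`[XY]` from [DVR] at `∞`.** -/
theorem nmx_cross_of_dvr (M p : ℕ) [NeZero M] [NeZero p] (hDo : NmDvrOoStatement M p) :
    NmCrossStatement M p :=
  nmCross_of_ord M p (nmx_crossOrd_of_dvr M p hDo)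

/-- **[DVR] at `∞`, unconditional** (helper82's `nmDvrOo_of_val` on helper86's `nmValOo`). -/
theorem nmx_dvrOo (M p : ℕ) [NeZero M] [NeZero p] : NmDvrOoStatement M p :=
  Fermat.Agent.H82.ORD.nmDvrOo_of_val (Fermat.Agent.H20.ORD.nmSoft M p)
    (Fermat.Agent.H86.ORD.nmValOo (Fermat.Agent.H20.ORD.nmSoft M p))

/-- **[DVR] at `0`, unconditional.** -/
theorem nmx_dvrZero (M p : ℕ) [NeZero M] [NeZero p] : NmDvrZeroStatement M p :=
  Fermat.Agent.H95.ORD.nmDvrZero_of_oo' M p (Fermat.Agent.H20.ORD.nmSoft M p) (nmx_dvrOo M p)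

/-- **Row `[XY]`, part (c), unconditional.** -/
theorem nmx_crossOrd (M p : ℕ) [NeZero M] [NeZero p] : NmCrossOrdStatement M p :=
  nmx_crossOrd_of_dvr M p (nmx_dvrOo M p)

/-- **Row `[XY]`, unconditional** : the nodes of the nodal model at the `ℚ̄`-level. -/
theorem nmx_cross (M p : ℕ) [NeZero M] [NeZero p] : NmCrossStatement M p :=
  nmx_cross_of_dvr M p (nmx_dvrOo M p)

end Fermat.Agent.H3.ORD
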