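import Fermat.Agent.H3.ORD.NmCrossRel
import Fermat.Agent.H84.ORD.NodalSpecFinal
import Fermat.Agent.H20.ORD.NmSoft
import Fermat.Agent.H48.SS.HauptBasics

/-!
# P-ORD, block B1, row B1-D-XY, part (c2) : from the uniformiser `H - c` to `Y` (helper3)

At a node (centre of `P` on both components, chart `j`), with `c = H(P) ∈ A` :

`Y = H - H_p ^ p = (H - c) (1 - G) + (c - c ^ (p²)) - X G'`, `G ∈ 𝔪`, `c - c ^ (p²) ∈ 𝔪_A`,

hence `red_∞ Y = red_∞ (H - c) · unit` and `ord_Q (red_∞ Y) = ord_Q (red_∞ (H - c))` for every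
place `Q` of `F_∞` over the centre.

* `nmH_mem_nmChart`, `nmHp_mem_nmChart` : `H, H_p ∈ B̄(j)` (unconditional);
* `nmo_ord_eq` : the generic statement for a component `(V, red)` (`CompSoft` of helper84);
* `NmTauOoStatement` : a place `Q` of `F_∞` over the centre at which `red_∞ (H - c)` is a
  uniformiser;
* `nmCrossOrdOo_of_tau` : the `∞`-half of `NmCrossOrdStatement` from `NmTauOoStatement`.
-/

set_option autoImplicit false
set_option maxSynthPendingDepth 3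
set_option linter.unusedSectionVars false
set_option linter.unusedVariables false
set_option linter.style.haveILetI false
set_option synthInstance.maxHeartbeats 400000
set_option maxHeartbeats 1600000

noncomputable section

open AlgebraicCurve ModularCurve

namespace Fermat.Agent.H3.ORD

open Fermat.Agent.H72.FF Fermat.Agent.H66 Fermat.Agent.H84.ORD
open Fermat.Agent.H22.KL Fermat.Agent.H93.KL Fermat.Agent.H7.SS2 Fermat.Agent.H7.SS
open Fermat.Agent.H9.E6 Fermat.Agent.H11.SS2 Fermat.Agent.H82.SS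
open Fermat.Agent.H8.SS

/-! ### `H, H_p ∈ B̄(j)` -/

section Haupt

/-- `H, H_p ∈ B̄(j)`. -/
theorem nmH_mem_nmChart_both (M p : ℕ) [NeZero M] [NeZero p] (A : ValuationSubring Qb)
    (h : NmSetup M p A) :
    nmH M p h.four ∈ nmChart (M * p) A (nmJ (M * p)) ∧
      nmHp M p h.four ∈ nmChart (M * p) A (nmJ (M * p)) := by
  classical
  haveI : Fact p.Prime := ⟨h.prime⟩
  have hpM : ¬ p ∣ M := nm_not_dvd h.prime h.cop
  have hpL : ((p : ℕ) : Qb) ≠ 0 := Nat.cast_ne_zero.mpr h.prime.ne_zero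
  let ι : ℚ →+* Qb := algebraMap ℚ Qb
  haveI hDVR : IsDiscreteValuationRing ↥(A.comap ι) :=
    Fermat.Agent.H93.KL.comap_isDiscreteValuationRing ι A hpL h.liesOver
  letI := modelAlgebra ℚ (A.comap ι) (M * p)
  haveI := modelAlgebra_isScalarTower ℚ (A.comap ι) (M * p)
  have hnu : ¬ IsUnit ((p : ℕ) : ↥(A.comap ι)) := nd_natCast_not_isUnit ι A h.liesOver
  obtain ⟨W, hW, hWbc⟩ := nd_exists_W (K₁ := ℚ) ι M p h.cop
  obtain ⟨-, H, Hq, u, uq, hH, hHq, hHB, hHqB, -⟩ :=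
    Fermat.Agent.H48.SSHaupt.modelHauptBasics M p h.four h.prime h.odd hpM ℚ ↥(A.comap ι) hnu
      (ndX (M * p)) (coe_ndX (M * p)) W hW
  have hbH : ndBc ι H = nmH M p h.four := by
    apply Subtype.ext
    rw [klBc_coe, hH, coeffMap_h4S, coe_nmH]
  have hbHq : ndBc ι Hq = nmHp M p h.four := by
    apply Subtype.ext
    rw [klBc_coe, hHq, coeffMap_qExpand, coeffMap_h4S, coe_nmHp]
  constructor
  · have := nd_bc_mem_nmChart ι A (ndX (M * p)) hHB
    rwa [ndBc_ndX, hbH] at this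
  · have := nd_bc_mem_nmChart ι A (ndX (M * p)) hHqB
    rwa [ndBc_ndX, hbHq] at this

end Haupt

/-! ### The identity -/

/-- `h₁ - h₂ ^ p = (h₁ - c) (1 - G) + (c - c ^ (p²)) - (h₂ - h₁ ^ p) G'` with
`G = (h₁ - c) ^ (p² - 1) + p c r`. -/
theorem nmo_identity {R : Type*} [CommRing R] (p : ℕ) (hp : p.Prime) (h₁ h₂ c : R) :
    ∃ r r' : R, h₁ - h₂ ^ p =
      (h₁ - c) * (1 - ((h₁ - c) ^ (p ^ 2 - 1) + (p : R) * c * r)) + (c - c ^ (p ^ 2)) -
        (h₂ - h₁ ^ p) * ((h₂ - h₁ ^ p) ^ (p - 1) + (p : R) * h₁ ^ p * r') := by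
  obtain ⟨r, hr⟩ := exists_add_pow_prime_pow_eq hp (h₁ - c) c 2
  obtain ⟨r', hr'⟩ := exists_add_pow_prime_eq hp (h₂ - h₁ ^ p) (h₁ ^ p)
  refine ⟨r, r', ?_⟩
  have hp1 : 1 ≤ p := hp.one_lt.le
  have hp2 : 1 ≤ p ^ 2 := Nat.one_le_pow _ _ hp.pos
  have e3 : (h₁ - c) ^ (p ^ 2) = (h₁ - c) * (h₁ - c) ^ (p ^ 2 - 1) := by
    rw [← pow_succ', Nat.sub_add_cancel hp2]
  have e4 : (h₂ - h₁ ^ p) ^ p = (h₂ - h₁ ^ p) * (h₂ - h₁ ^ p) ^ (p - 1) := by
    rw [← pow_succ', Nat.sub_add_cancel hp1]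
  have e5 : (h₁ ^ p) ^ p = h₁ ^ (p ^ 2) := by rw [← pow_mul, sq]
  have e1 : h₁ ^ (p ^ 2) =
      (h₁ - c) * (h₁ - c) ^ (p ^ 2 - 1) + c ^ (p ^ 2) + (p : R) * (h₁ - c) * c * r := by
    rw [← e3, ← hr, sub_add_cancel]
  have e2 : h₂ ^ p = (h₂ - h₁ ^ p) * (h₂ - h₁ ^ p) ^ (p - 1) + h₁ ^ (p ^ 2) +
      (p : R) * (h₂ - h₁ ^ p) * h₁ ^ p * r' := by
    rw [← e4, ← e5, ← hr', sub_add_cancel]
  linear_combination (-1 : R) * e2 + (-1 : R) * e1

/-! ### The generic statement -/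

section Generic

variable {N : ℕ} [NeZero N] {A : ValuationSubring Qb} {Fk : Type} [Field Fk]
  [Algebra (kRes A) Fk] {V : Subring (FLb N)} {red : V →+* Fk}

theorem nmo_add_mem_nmMax (P : Place Qb (FLb N)) {f g : FLb N} (hf : f ∈ nmMax A P)
    (hg : g ∈ nmMax A P) : f + g ∈ nmMax A P := by
  have hdeg : P.deg = 1 := Fermat.Agent.H70.SS.ss_deg_eq_one_bar N P
  rw [nd_mem_nmMax_iff A P hdeg, ValuationSubring.mem_nonunits_iff] at hf hg ⊢
  exact lt_of_le_of_lt (Valuation.map_add _ _ _) (max_lt hf hg)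

theorem nmo_neg_mem_nmMax (P : Place Qb (FLb N)) {f : FLb N} (hf : f ∈ nmMax A P) :
    -f ∈ nmMax A P := by
  have hdeg : P.deg = 1 := Fermat.Agent.H70.SS.ss_deg_eq_one_bar N P
  rw [nd_mem_nmMax_iff A P hdeg, ValuationSubring.mem_nonunits_iff] at hf ⊢
  rwa [Valuation.map_neg]

theorem nmo_mul_mem_nmMax (P : Place Qb (FLb N)) {f g : FLb N} (hf : f ∈ nmMax A P)
    (hg : g ∈ nmChart N A (nmY A P)) : f * g ∈ nmMax A P := by
  have hdeg : P.deg = 1 := Fermat.Agent.H70.SS.ss_deg_eq_one_bar N P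
  have hg' := nd_nmChart_le_nmComp A P hdeg hg
  rw [nd_mem_nmMax_iff A P hdeg, ValuationSubring.mem_nonunits_iff] at hf ⊢
  rw [map_mul]
  have h1 : (nmComp A P hdeg).valuation g ≤ 1 :=
    (ValuationSubring.valuation_le_one_iff _ _).2 hg'
  calc (nmComp A P hdeg).valuation f * (nmComp A P hdeg).valuation g
      ≤ (nmComp A P hdeg).valuation f * 1 := by gcongr
    _ = (nmComp A P hdeg).valuation f := mul_one _
    _ < 1 := hf

theorem nmo_one_not_mem_nmMax (P : Place Qb (FLb N)) : (1 : FLb N) ∉ nmMax A P := by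
  have hdeg : P.deg = 1 := Fermat.Agent.H70.SS.ss_deg_eq_one_bar N P
  rw [nd_mem_nmMax_iff A P hdeg, ValuationSubring.mem_nonunits_iff, map_one]
  exact lt_irrefl _

theorem nmo_const_mem_nmMax (P : Place Qb (FLb N)) {c : Qb} (hc : c ∈ A.nonunits) :
    algebraMap Qb (FLb N) c ∈ nmMax A P :=
  ⟨c, hc, nm_hasValue_const P c⟩

theorem nmo_const_of_mem_nmMax (P : Place Qb (FLb N)) {c : Qb}
    (hc : algebraMap Qb (FLb N) c ∈ nmMax A P) : c ∈ A.nonunits := by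
  obtain ⟨d, hd, hv⟩ := hc
  rw [nm_hasValue_unique P (nm_hasValue_const P c) hv]
  exact hd

theorem nmo_sub_const_mem_nmMax (P : Place Qb (FLb N)) {f : FLb N} {c : Qb}
    (hv : HasValue P f c) : f - algebraMap Qb (FLb N) c ∈ nmMax A P := by
  refine ⟨0, (ValuationSubring.mem_nonunits_iff _).2 (by simp), ?_⟩
  have := nm_hasValue_sub P hv (nm_hasValue_const P c)
  rwa [sub_self] at this

/-- the order of a unit of `O_Q` -/
theorem nmo_ord_unit (Q : Place (kRes A) Fk) {u : Fk} (hu : u ∈ Q.toValuationSubring)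
    (hun : u ∉ Q.toValuationSubring.nonunits) : u ≠ 0 ∧ Q.ord u = 0 := by
  have hu0 : u ≠ 0 := by
    rintro rfl
    exact hun ((ValuationSubring.mem_nonunits_iff _).2 (by simp))
  refine ⟨hu0, ?_⟩
  have h1 : 0 ≤ Q.ord u := Fermat.Agent.H23.ord_nonneg_of_mem Q hu
  have hinv : u⁻¹ ∈ Q.toValuationSubring := by
    rw [ValuationSubring.mem_nonunits_iff_or] at hun
    push Not at hun
    exact hun.2
  have h2 : 0 ≤ Q.ord u⁻¹ := Fermat.Agent.H23.ord_nonneg_of_mem Q hinv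
  rw [Place.ord_inv] at h2
  omega

/-- **The generic statement** : for a component `(V, red)`, a place `Q` over the centre of `P`,
`h₁, h₂ ∈ B̄`, `x = h₂ - h₁ ^ p ∈ 𝔪` with `red x = 0`, `y = h₁ - h₂ ^ p ∈ 𝔪`, `c = h₁(P)` :
`ord_Q (red y) = ord_Q (red (h₁ - c))`. -/
theorem nmo_ord_eq (H : CompSoft A V red) (P : Place Qb (FLb N))
    (Q : Place (kRes A) Fk) (hQ : GenSpec V red (nmCentre A P) Q)
    (p : ℕ) (hp : p.Prime) (hpA : (p : Qb) ∈ A.nonunits) {h₁ h₂ : FLb N}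
    (hh₁ : h₁ ∈ nmChart N A (nmY A P)) (hh₂ : h₂ ∈ nmChart N A (nmY A P))
    (hx : h₂ - h₁ ^ p ∈ V) (hxr : red ⟨h₂ - h₁ ^ p, hx⟩ = 0)
    (hxm : h₂ - h₁ ^ p ∈ nmMax A P) (hym : h₁ - h₂ ^ p ∈ nmMax A P)
    {c : Qb} (hc : c ∈ A) (hv : HasValue P h₁ c)
    (hy : h₁ - h₂ ^ p ∈ V) (hτ : h₁ - algebraMap Qb (FLb N) c ∈ V) :
    Q.ord (red ⟨h₁ - h₂ ^ p, hy⟩) = Q.ord (red ⟨h₁ - algebraMap Qb (FLb N) c, hτ⟩) := by
  classical
  -- the chart as a ring, and the reduction on it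
  set B := nmChart N A (nmY A P) with hB
  have hBV : B ≤ V := fun f hf => H.chart_le P hf
  let ρ : ↥B →+* Fk := red.comp (Subring.inclusion hBV)
  have hρ : ∀ (f : FLb N) (hf : f ∈ B) (hfV : f ∈ V), ρ ⟨f, hf⟩ = red ⟨f, hfV⟩ := fun _ _ _ => rfl
  have hcB : algebraMap Qb (FLb N) c ∈ B := algebraMap_mem_nmChart A _ hc
  obtain ⟨r, r', hid⟩ := nmo_identity p hp (⟨h₁, hh₁⟩ : ↥B) ⟨h₂, hh₂⟩
    ⟨algebraMap Qb (FLb N) c, hcB⟩
  -- names
  set b₁ : ↥B := ⟨h₁, hh₁⟩ with hb₁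
  set b₂ : ↥B := ⟨h₂, hh₂⟩ with hb₂
  set cc : ↥B := ⟨algebraMap Qb (FLb N) c, hcB⟩ with hcc
  set G : ↥B := (b₁ - cc) ^ (p ^ 2 - 1) + (p : ↥B) * cc * r with hG
  set G' : ↥B := (b₂ - b₁ ^ p) ^ (p - 1) + (p : ↥B) * b₁ ^ p * r' with hG'
  -- memberships in the maximal ideal
  have hτm : ((b₁ - cc : ↥B) : FLb N) ∈ nmMax A P := nmo_sub_const_mem_nmMax P hv
  have hpm : (((p : ℕ) : ↥B) : FLb N) ∈ nmMax A P := by
    have e : (((p : ℕ) : ↥B) : FLb N) = algebraMap Qb (FLb N) (p : Qb) := by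
      rw [map_natCast]
      rfl
    rw [e]
    exact nmo_const_mem_nmMax P hpA
  have hp2 : p ^ 2 - 1 = (p ^ 2 - 2) + 1 := by
    have : 4 ≤ p ^ 2 := by nlinarith [hp.two_le]
    omega
  have hGm : (G : FLb N) ∈ nmMax A P := by
    have e : (G : FLb N) = ((b₁ - cc : ↥B) : FLb N) * (((b₁ - cc) ^ (p ^ 2 - 2) : ↥B) : FLb N) +
        (((p : ℕ) : ↥B) : FLb N) * ((cc * r : ↥B) : FLb N) := by
      rw [hG, hp2, pow_succ']
      push_cast
      ring
    rw [e]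
    exact nmo_add_mem_nmMax P (nmo_mul_mem_nmMax P hτm (SetLike.coe_mem _))
      (nmo_mul_mem_nmMax P hpm (SetLike.coe_mem _))
  have hxm' : ((b₂ - b₁ ^ p : ↥B) : FLb N) ∈ nmMax A P := hxm
  have hym' : ((b₁ - b₂ ^ p : ↥B) : FLb N) ∈ nmMax A P := hym
  -- the constant `c - c ^ (p²)` lies in `𝔪_A`
  have hconst : c - c ^ (p ^ 2) ∈ A.nonunits := by
    apply nmo_const_of_mem_nmMax (A := A) P
    have e : algebraMap Qb (FLb N) (c - c ^ (p ^ 2)) =
        ((b₁ - b₂ ^ p : ↥B) : FLb N) +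
          (-(((b₁ - cc : ↥B) : FLb N) * ((1 - G : ↥B) : FLb N)) +
            ((b₂ - b₁ ^ p : ↥B) : FLb N) * (G' : FLb N)) := by
      have h1 := congrArg (fun z : ↥B => (z : FLb N)) hid
      have h2 : ((cc - cc ^ (p ^ 2) : ↥B) : FLb N) = algebraMap Qb (FLb N) (c - c ^ (p ^ 2)) := by
        have e0 : algebraMap Qb (FLb N) (c - c ^ (p ^ 2)) =
            algebraMap Qb (FLb N) c - (algebraMap Qb (FLb N) c) ^ (p ^ 2) := by
          rw [map_sub, map_pow]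
        rw [e0]
        rfl
      rw [← h2]
      have h3 : ((b₁ - b₂ ^ p : ↥B) : FLb N) =
          ((b₁ - cc : ↥B) : FLb N) * ((1 - G : ↥B) : FLb N) +
            ((cc - cc ^ (p ^ 2) : ↥B) : FLb N) -
            ((b₂ - b₁ ^ p : ↥B) : FLb N) * (G' : FLb N) := h1
      rw [h3]
      ring
    rw [e]
    exact nmo_add_mem_nmMax P hym' (nmo_add_mem_nmMax P
      (nmo_neg_mem_nmMax P (nmo_mul_mem_nmMax P hτm (SetLike.coe_mem _)))
      (nmo_mul_mem_nmMax P hxm' (SetLike.coe_mem _)))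
  -- the unit
  have hu1 : ((1 - G : ↥B) : FLb N) ∉ nmMax A P := by
    intro h1
    apply nmo_one_not_mem_nmMax (A := A) P
    have e : (1 : FLb N) = ((1 - G : ↥B) : FLb N) + (G : FLb N) := by
      push_cast
      ring
    rw [e]
    exact nmo_add_mem_nmMax P h1 hGm
  have huV : ((1 - G : ↥B) : FLb N) ∈ V := hBV (SetLike.coe_mem _)
  have hu2 : ρ (1 - G) ∈ Q.toValuationSubring :=
    H.red_mem P hQ (SetLike.coe_mem (1 - G)) huV
  have hu3 : ρ (1 - G) ∉ Q.toValuationSubring.nonunits := fun h1 =>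
    hu1 ((H.red_mem_nonunits_iff P hQ (SetLike.coe_mem (1 - G)) huV).1 h1)
  obtain ⟨hu0, huord⟩ := nmo_ord_unit Q hu2 hu3
  -- the reductions
  have hρx : ρ (b₂ - b₁ ^ p) = 0 := hxr
  have hρc : ρ (cc - cc ^ (p ^ 2)) = 0 := by
    have hcA' : c - c ^ (p ^ 2) ∈ A := ValuationSubring.nonunits_subset hconst
    have e0 : algebraMap Qb (FLb N) (c - c ^ (p ^ 2)) =
        algebraMap Qb (FLb N) c - (algebraMap Qb (FLb N) c) ^ (p ^ 2) := by
      rw [map_sub, map_pow]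
    have e : ρ (cc - cc ^ (p ^ 2)) =
        red ⟨algebraMap Qb (FLb N) (c - c ^ (p ^ 2)), H.const_mem _ hcA'⟩ := by
      show red _ = red _
      congr 1
      apply Subtype.ext
      show ((cc - cc ^ (p ^ 2) : ↥B) : FLb N) = algebraMap Qb (FLb N) (c - c ^ (p ^ 2))
      rw [e0]
      rfl
    rw [e]
    exact H.red_const_nonunit hconst
  have hρy : ρ (b₁ - b₂ ^ p) = ρ (b₁ - cc) * ρ (1 - G) := by
    rw [hid, map_sub, map_add, map_mul, map_mul, hρx, hρc]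
    ring
  have e1 : red ⟨h₁ - h₂ ^ p, hy⟩ = ρ (b₁ - b₂ ^ p) := rfl
  have e2 : red ⟨h₁ - algebraMap Qb (FLb N) c, hτ⟩ = ρ (b₁ - cc) := rfl
  rw [e1, e2, hρy]
  by_cases h0 : ρ (b₁ - cc) = 0
  · rw [h0, zero_mul]
  · rw [Place.ord_mul Q h0 hu0, huord, add_zero]

end Generic

/-! ### The component `∞` -/

/-- **(c1)** a place `Q` of `F_∞` over the centre at which `red_∞ (H - c)`, `c = H(P)`, is a
uniformiser. -/
def NmTauOoStatement (M p : ℕ) [NeZero M] [NeZero p] : Prop :=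
  ∀ (A : ValuationSubring Qb) (h : NmSetup M p A) (P : Place Qb (FLb (M * p))),
    NmIdealOo M p A P → nmY A P = nmJ (M * p) →
    ∀ c ∈ A, HasValue P (nmH M p h.four) c →
    ∃ Q : Place (kRes A) (NmF (M * p) A), NmSpecOo M p A (nmCentre A P) Q ∧
      ∃ hτ : nmH M p h.four - algebraMap Qb (FLb (M * p)) c ∈ gaussOBar (M * p) A,
        Q.ord (nmRedOo (M * p) A ⟨_, hτ⟩) = 1

/-- **(c2), component `∞`** : the `∞`-half of `NmCrossOrdStatement` from `NmTauOoStatement`. -/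
theorem nmCrossOrdOo_of_tau (M p : ℕ) [NeZero M] [NeZero p] (hT : NmTauOoStatement M p) :
    ∀ (A : ValuationSubring Qb) (h : NmSetup M p A) (P : Place Qb (FLb (M * p))),
      NmIdealOo M p A P → NmIdealZero M p h.cop A P → nmY A P = nmJ (M * p) →
      nmX M p h.four ∈ nmChart (M * p) A (nmJ (M * p)) →
      nmYc M p h.four ∈ nmChart (M * p) A (nmJ (M * p)) →
      nmX M p h.four ∈ nmMax A P → nmYc M p h.four ∈ nmMax A P →
      ∃ Q : Place (kRes A) (NmF (M * p) A), NmSpecOo M p A (nmCentre A P) Q ∧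
        ∃ hY : nmYc M p h.four ∈ gaussOBar (M * p) A,
          Q.ord (nmRedOo (M * p) A ⟨nmYc M p h.four, hY⟩) = 1 := by
  intro A h P hOo hZ hyJ hXB hYB hXm hYm
  have HB : NmBase M p A := nmBase_of_soft (Fermat.Agent.H20.ORD.nmSoft M p) h
  have hdeg : P.deg = 1 := Fermat.Agent.H70.SS.ss_deg_eq_one_bar (M * p) P
  obtain ⟨hHB, hHqB⟩ := nmH_mem_nmChart_both M p A h
  rw [← hyJ] at hHB hHqB hXB hYB
  obtain ⟨c, hcA, hcv⟩ := nmChart_value P hdeg hHB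
  obtain ⟨Q, hQ, hτ, hord⟩ := hT A h P hOo hyJ c hcA hcv
  obtain ⟨d, ψ, -, -, -, -, -, -, -, -, -, ⟨hXV, hXr⟩, -⟩ := nmCrossRel M p A h P hOo hZ hyJ
  have hYV : nmYc M p h.four ∈ gaussOBar (M * p) A := HB.oo.chart_le P hYB
  refine ⟨Q, hQ, hYV, ?_⟩
  rw [← hord]
  exact nmo_ord_eq HB.oo P Q hQ p h.prime h.liesOver hHB hHqB hXV hXr hXm hYm hcA hcv hYV hτ

/-! ### The component `0` -/

/-- **(c1), component `0`** : a place `Q'` of `F_0` over the centre at which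
`red_0 (H_p - d)`, `d = H_p(P)`, is a uniformiser. -/
def NmTauZeroStatement (M p : ℕ) [NeZero M] [NeZero p] : Prop :=
  ∀ (A : ValuationSubring Qb) (h : NmSetup M p A) (P : Place Qb (FLb (M * p))),
    NmIdealZero M p h.cop A P → nmY A P = nmJ (M * p) →
    ∀ d ∈ A, HasValue P (nmHp M p h.four) d →
    ∃ Q : Place (kRes A) (NmF (M * p) A), NmSpecZero M p h.cop A (nmCentre A P) Q ∧
      ∃ hτ : nmHp M p h.four - algebraMap Qb (FLb (M * p)) d ∈ nmV0 M p h.cop A,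
        Q.ord (nmRed0 M p h.cop A ⟨_, hτ⟩) = 1

/-- **(c2), component `0`** : the `0`-half of `NmCrossOrdStatement` from `NmTauZeroStatement`. -/
theorem nmCrossOrdZero_of_tau (M p : ℕ) [NeZero M] [NeZero p] (hT : NmTauZeroStatement M p) :
    ∀ (A : ValuationSubring Qb) (h : NmSetup M p A) (P : Place Qb (FLb (M * p))),
      NmIdealOo M p A P → NmIdealZero M p h.cop A P → nmY A P = nmJ (M * p) →
      nmX M p h.four ∈ nmChart (M * p) A (nmJ (M * p)) →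
      nmYc M p h.four ∈ nmChart (M * p) A (nmJ (M * p)) →
      nmX M p h.four ∈ nmMax A P → nmYc M p h.four ∈ nmMax A P →
      ∃ Q : Place (kRes A) (NmF (M * p) A), NmSpecZero M p h.cop A (nmCentre A P) Q ∧
        ∃ hX : nmX M p h.four ∈ nmV0 M p h.cop A,
          Q.ord (nmRed0 M p h.cop A ⟨nmX M p h.four, hX⟩) = 1 := by
  intro A h P hOo hZ hyJ hXB hYB hXm hYm
  have HB : NmBase M p A := nmBase_of_soft (Fermat.Agent.H20.ORD.nmSoft M p) h
  have hdeg : P.deg = 1 := Fermat.Agent.H70.SS.ss_deg_eq_one_bar (M * p) P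
  obtain ⟨hHB, hHqB⟩ := nmH_mem_nmChart_both M p A h
  rw [← hyJ] at hHB hHqB hXB hYB
  obtain ⟨d, hdA, hdv⟩ := nmChart_value P hdeg hHqB
  obtain ⟨Q, hQ, hτ, hord⟩ := hT A h P hZ hyJ d hdA hdv
  obtain ⟨e, ψ, -, -, -, -, -, -, -, -, -, -, ⟨hYV, hYr⟩⟩ := nmCrossRel M p A h P hOo hZ hyJ
  have hXV : nmX M p h.four ∈ nmV0 M p h.cop A := HB.zero.chart_le P hXB
  refine ⟨Q, hQ, hXV, ?_⟩
  rw [← hord]
  exact nmo_ord_eq HB.zero P Q hQ p h.prime h.liesOver hHqB hHB hYV hYr hYm hXm hdA hdv hXV hτ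

/-- **(c) from (c1)** : `NmCrossOrdStatement` from the two uniformiser statements. -/
theorem nmCrossOrd_of_tau (M p : ℕ) [NeZero M] [NeZero p] (hT : NmTauOoStatement M p)
    (hT' : NmTauZeroStatement M p) : NmCrossOrdStatement M p := by
  intro A h P hOo hZ hyJ hXB hYB hXm hYm
  obtain ⟨Q, hQ, hY⟩ := nmCrossOrdOo_of_tau M p hT A h P hOo hZ hyJ hXB hYB hXm hYm
  obtain ⟨Q', hQ', hX⟩ := nmCrossOrdZero_of_tau M p hT' A h P hOo hZ hyJ hXB hYB hXm hYm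
  exact ⟨Q, Q', hQ, hQ', hY, hX⟩

/-- **`[XY]` from (c1)** : `NmCrossStatement M p` from the two uniformiser statements. -/
theorem nmCross_of_tau (M p : ℕ) [NeZero M] [NeZero p] (hT : NmTauOoStatement M p)
    (hT' : NmTauZeroStatement M p) : NmCrossStatement M p :=
  nmCross_of_ord M p (nmCrossOrd_of_tau M p hT hT')

end Fermat.Agent.H3.ORD

end
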