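import Fermat.Agent.H3.ORD.NmDict
import Fermat.Agent.H3.ORD.NmCrossDefs
import Fermat.Agent.H8.ORD.NodePkg
import Fermat.Agent.H7.SS2.CuspGen

/-!
# P-ORD, block B1, row B1-D-XY : the nodes at the `ℚ̄`-level, parts (a) and (b) (helper3)

Level `M p`, `p` an odd prime, `p ∤ M`, `4 ∣ M`; `A` a valuation subring of `ℚ̄` over `p`, `P` a
place of `F = FLb (M p)` whose centre lies on both components (`NmIdealOo`, `NmIdealZero`).

* `nmH`, `nmHp`, `nmX = H_p - H ^ p`, `nmYc = H - H_p ^ p` : the canonical coordinates at the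
  nodes (`H` the Hauptmodul of level `4`, `H_p = H(q^p)`);
* `nmCross_noncusp` : **(b)** the chart of `P` is `j` (the centre is not cuspidal);
* `nmCross_rel` : **(a)** `d X Y = p ψ` with `d, ψ ∈ B̄(j) ∖ 𝔪`, `X, Y ∈ B̄(j) ∩ 𝔪`,
  `red_∞ X = 0`, `red_0 Y = 0`, `Y ∈ V_∞`, `X ∈ V_0`.

Proof: descent to a number field `K₁ ⊂ ℚ̄` (dictionary `Fermat.Agent.H3.ORD.NmDict`), helper8's
`ssCrossData`, helper7's `cuspGenR`.
-/

set_option autoImplicit false
set_option maxSynthPendingDepth 3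
set_option linter.unusedSectionVars false
set_option linter.unusedVariables false
set_option linter.style.haveILetI false
set_option synthInstance.maxHeartbeats 400000
set_option maxHeartbeats 1600000

noncomputable section

open AlgebraicCurve ModularCurve

namespace Fermat.Agent.H3.ORD

open Fermat.Agent.H72.FF Fermat.Agent.H66 Fermat.Agent.H84.ORD
open Fermat.Agent.H22.KL Fermat.Agent.H93.KL Fermat.Agent.H7.SS2 Fermat.Agent.H7.SS
open Fermat.Agent.H9.E6 Fermat.Agent.H11.SS2 Fermat.Agent.H82.SS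
open Fermat.Agent.H8.SS Fermat.Agent.H59.SS Fermat.Agent.H45

/-! ### The standing data of the descent -/

theorem nm_not_dvd {M p : ℕ} (hp : p.Prime) (hcop : Nat.Coprime M p) : ¬ p ∣ M := fun hd =>
  (Nat.Prime.coprime_iff_not_dvd hp).1 hcop.symm hd

/-! ### (b) : the centre is not cuspidal -/

section NonCusp

variable {K₁ : Type} [Field K₁] [Algebra ℚ K₁] [FiniteDimensional ℚ K₁] (ι : K₁ →+* Qb)

include ι in
/-- **(b) over a number field with a primitive `M`-th root of unity.** -/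
theorem nmCross_noncusp_field (M p : ℕ) [NeZero M] [NeZero p]
    (hζ : ∃ ζ : K₁, IsPrimitiveRoot ζ M)
    (A : ValuationSubring Qb) (h : NmSetup M p A) (P : Place Qb (FLb (M * p)))
    (hOo : NmIdealOo M p A P) (hZ : NmIdealZero M p h.cop A P) :
    nmY A P = nmJ (M * p) := by
  classical
  by_contra hne
  have hyI : nmY A P = (nmJ (M * p))⁻¹ := (nd_nmY_eq_or A P).resolve_left hne
  have hjn : nmJ (M * p) ∉ nmInt A P := fun hj => hne ((nd_nmY_eq_nmJ_iff A P).2 hj)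
  haveI : Fact p.Prime := ⟨h.prime⟩
  have hpM : ¬ p ∣ M := nm_not_dvd h.prime h.cop
  haveI : NumberField K₁ := Fermat.Agent.H66.ORD.ordNumberField_of_fd K₁
  have hpL : ((p : ℕ) : Qb) ≠ 0 := Nat.cast_ne_zero.mpr h.prime.ne_zero
  haveI hDVR : IsDiscreteValuationRing ↥(A.comap ι) :=
    Fermat.Agent.H93.KL.comap_isDiscreteValuationRing ι A hpL h.liesOver
  obtain ⟨ϖ, hϖ⟩ := IsDiscreteValuationRing.exists_irreducible ↥(A.comap ι)
  letI := modelAlgebra K₁ (A.comap ι) (M * p)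
  haveI := modelAlgebra_isScalarTower K₁ (A.comap ι) (M * p)
  have hnu : ¬ IsUnit ((p : ℕ) : ↥(A.comap ι)) := nd_natCast_not_isUnit ι A h.liesOver
  have hdeg : P.deg = 1 := Fermat.Agent.H70.SS.ss_deg_eq_one_bar (M * p) P
  have hy : ndBc ι ((ndX (M * p) : ModelField K₁ (M * p)))⁻¹ = nmY A P := by
    rw [map_inv₀, ndBc_ndX, hyI]
  obtain ⟨W, hW, hWbc⟩ := nd_exists_W (K₁ := K₁) ι M p h.cop
  have h𝔪 := ndIdeal_isMaximal ι A P hdeg _ hy p h.liesOver
  have hϖ𝔪 := nd_algebraMap_mem_ndIdeal ι A P hdeg _ hy hϖ.not_isUnit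
  have hT₁ := nd_through_vInf ι A P hdeg _ hy hOo
  have hT₂ := nd_through_vZero ι A M p h.cop P hdeg _ hy W hWbc hZ
  have hxinv : ∀ s : chartClosure ↥(A.comap ι) (ModelField K₁ (M * p))
      (ndX (M * p) : ModelField K₁ (M * p))⁻¹,
      (s : ModelField K₁ (M * p)) = (ndX (M * p) : ModelField K₁ (M * p))⁻¹ →
      s ∈ ndIdeal ι A P hdeg _ hy := by
    intro s hs
    rw [mem_ndIdeal_iff, hs, map_inv₀, ndBc_ndX]
    exact nd_inv_nmJ_mem_nmMax A P hjn
  exact (cuspGenR M p h.prime hpM K₁ ↥(A.comap ι) hnu hζ ϖ hϖ (ndX (M * p)) (coe_ndX (M * p))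
    W hW _ h𝔪 hϖ𝔪 hxinv).1 ⟨hT₁, hT₂⟩

end NonCusp

/-! ### (a) : the relation `d X Y = p ψ` -/

section Rel

variable {K₁ : Type} [Field K₁] [Algebra ℚ K₁] [FiniteDimensional ℚ K₁] (ι : K₁ →+* Qb)

include ι in
/-- **(a) by descent to a number field.** -/
theorem nmCross_rel_field (M p : ℕ) [NeZero M] [NeZero p]
    (A : ValuationSubring Qb) (h : NmSetup M p A) (P : Place Qb (FLb (M * p)))
    (hOo : NmIdealOo M p A P) (hZ : NmIdealZero M p h.cop A P)
    (hyJ : nmY A P = nmJ (M * p)) :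
    ∃ d ψ : FLb (M * p),
      nmX M p h.four ∈ nmChart (M * p) A (nmJ (M * p)) ∧
      nmYc M p h.four ∈ nmChart (M * p) A (nmJ (M * p)) ∧
      d ∈ nmChart (M * p) A (nmJ (M * p)) ∧ ψ ∈ nmChart (M * p) A (nmJ (M * p)) ∧
      d * nmX M p h.four * nmYc M p h.four = algebraMap Qb (FLb (M * p)) (p : Qb) * ψ ∧
      d ∉ nmMax A P ∧ ψ ∉ nmMax A P ∧
      nmX M p h.four ∈ nmMax A P ∧ nmYc M p h.four ∈ nmMax A P ∧
      (∃ hX : nmX M p h.four ∈ gaussOBar (M * p) A,
        nmRedOo (M * p) A ⟨nmX M p h.four, hX⟩ = 0) ∧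
      (∃ hY : nmYc M p h.four ∈ nmV0 M p h.cop A,
        nmRed0 M p h.cop A ⟨nmYc M p h.four, hY⟩ = 0) := by
  classical
  haveI : Fact p.Prime := ⟨h.prime⟩
  have hpM : ¬ p ∣ M := nm_not_dvd h.prime h.cop
  haveI : NumberField K₁ := Fermat.Agent.H66.ORD.ordNumberField_of_fd K₁
  have hpL : ((p : ℕ) : Qb) ≠ 0 := Nat.cast_ne_zero.mpr h.prime.ne_zero
  haveI hDVR : IsDiscreteValuationRing ↥(A.comap ι) :=
    Fermat.Agent.H93.KL.comap_isDiscreteValuationRing ι A hpL h.liesOver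
  obtain ⟨ϖ, hϖ⟩ := IsDiscreteValuationRing.exists_irreducible ↥(A.comap ι)
  letI := modelAlgebra K₁ (A.comap ι) (M * p)
  haveI := modelAlgebra_isScalarTower K₁ (A.comap ι) (M * p)
  have hnu : ¬ IsUnit ((p : ℕ) : ↥(A.comap ι)) := nd_natCast_not_isUnit ι A h.liesOver
  have hdeg : P.deg = 1 := Fermat.Agent.H70.SS.ss_deg_eq_one_bar (M * p) P
  have hy : ndBc ι (ndX (M * p) : ModelField K₁ (M * p)) = nmY A P := by
    rw [ndBc_ndX, hyJ]
  obtain ⟨W, hW, hWbc⟩ := nd_exists_W (K₁ := K₁) ι M p h.cop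
  have h𝔪 := ndIdeal_isMaximal ι A P hdeg _ hy p h.liesOver
  have hϖ𝔪 := nd_algebraMap_mem_ndIdeal ι A P hdeg _ hy hϖ.not_isUnit
  have hT₁ := nd_through_vInf ι A P hdeg _ hy hOo
  have hT₂ := nd_through_vZero ι A M p h.cop P hdeg _ hy W hWbc hZ
  have hOnI : SSOnInfty K₁ (M * p) ↥(A.comap ι) ϖ (ndX (M * p))
      (ndIdeal ι A P hdeg _ hy) :=
    fun s hs => hT₁ s ((Fermat.Agent.H41.SS.ssMaxInfty_iff hϖ _).1 hs)
  have hOnZ : SSOnZero K₁ (M * p) ↥(A.comap ι) ϖ W (ndX (M * p))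
      (ndIdeal ι A P hdeg _ hy) :=
    fun s hs => hT₂ s ((mem_nonunits_vZero_iff W _).2
      ((Fermat.Agent.H41.SS.ssMaxInfty_iff hϖ _).1 hs))
  obtain ⟨D, Ψ, HB, HqB, hHB, hHqB, hss⟩ :=
    ssCrossData M p h.four h.prime h.odd hpM K₁ ↥(A.comap ι) hnu ϖ hϖ (ndX (M * p))
      (coe_ndX (M * p)) W hW _ h𝔪 hϖ𝔪 hOnI hOnZ
  -- base change of `H`, `H_p`
  have hbH : ndBc ι (HB : ModelField K₁ (M * p)) = nmH M p h.four := by
    apply Subtype.ext
    rw [klBc_coe, hHB, coeffMap_h4S, coe_nmH]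
  have hbHq : ndBc ι (HqB : ModelField K₁ (M * p)) = nmHp M p h.four := by
    apply Subtype.ext
    rw [klBc_coe, hHqB, coeffMap_qExpand, coeffMap_h4S, coe_nmHp]
  have hbX : ndBc ι ((HqB - HB ^ p : chartClosure ↥(A.comap ι) (ModelField K₁ (M * p))
      (ndX (M * p))) : ModelField K₁ (M * p)) = nmX M p h.four := by
    push_cast
    rw [map_sub, map_pow, hbH, hbHq]
    rfl
  have hbY : ndBc ι ((HB - HqB ^ p : chartClosure ↥(A.comap ι) (ModelField K₁ (M * p))
      (ndX (M * p))) : ModelField K₁ (M * p)) = nmYc M p h.four := by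
    push_cast
    rw [map_sub, map_pow, hbH, hbHq]
    rfl
  have hchart : ∀ b : chartClosure ↥(A.comap ι) (ModelField K₁ (M * p)) (ndX (M * p)),
      ndBc ι (b : ModelField K₁ (M * p)) ∈ nmChart (M * p) A (nmJ (M * p)) := by
    intro b
    have := nd_bc_mem_nmChart ι A (ndX (M * p)) b.2
    rwa [ndBc_ndX] at this
  have hrel := node_rel_of_isSSData hss
  set dB := (D.map (Polynomial.mapRingHom (algebraMap ↥(A.comap ι)
    (chartClosure ↥(A.comap ι) (ModelField K₁ (M * p)) (ndX (M * p)))))).evalEval HB HqB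
    with hdB
  set ψB := (Ψ.map (Polynomial.mapRingHom (algebraMap ↥(A.comap ι)
    (chartClosure ↥(A.comap ι) (ModelField K₁ (M * p)) (ndX (M * p)))))).evalEval HB HqB
    with hψB
  -- the action of `W`
  have hHS : ((HB : ModelField K₁ (M * p)) : LaurentSeries K₁) =
      coeffMap (Int.castRingHom K₁) h4Z := hHB
  have hHqS : ((HqB : ModelField K₁ (M * p)) : LaurentSeries K₁) =
      qExpand K₁ p (coeffMap (Int.castRingHom K₁) h4Z) := hHqB
  have hβH : heckeBetaBar K₁ M p ⟨h4S K₁, h4S_mem_laurentBaseChange K₁ M h.four⟩ =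
      (HqB : ModelField K₁ (M * p)) := by
    apply Subtype.ext
    rw [coe_heckeBetaBar, hHqB]
  have hαH : heckeAlphaBar K₁ M p ⟨h4S K₁, h4S_mem_laurentBaseChange K₁ M h.four⟩ =
      (HB : ModelField K₁ (M * p)) := by
    apply Subtype.ext
    rw [coe_heckeAlphaBar, hHB]
  have hWH : W (HB : ModelField K₁ (M * p)) = HqB := by rw [← hαH, hW.1, hβH]
  have hWHq : W (HqB : ModelField K₁ (M * p)) = HB := by rw [← hβH, hW.2, hαH]
  have hXV : (HqB : ModelField K₁ (M * p)) - (HB : ModelField K₁ (M * p)) ^ p ∈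
      (vInf K₁ ↥(A.comap ι) (M * p)).nonunits :=
    mem_nonunits_vInf_X M p K₁ ↥(A.comap ι) hnu W hW h.prime h4Z _ _ hHS hHqS
  have hYV : (HB : ModelField K₁ (M * p)) - (HqB : ModelField K₁ (M * p)) ^ p ∈
      (vZero K₁ ↥(A.comap ι) (M * p) W).nonunits :=
    mem_nonunits_vZero_Y M p K₁ ↥(A.comap ι) hnu W hW h.prime h4Z _ _ hHS hHqS hWH hWHq
  refine ⟨ndBc ι (dB : ModelField K₁ (M * p)), ndBc ι (ψB : ModelField K₁ (M * p)),
    ?_, ?_, hchart dB, hchart ψB, ?_, ?_, ?_, ?_, ?_, ?_, ?_⟩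
  · rw [← hbX]; exact hchart _
  · rw [← hbY]; exact hchart _
  · rw [← hbX, ← hbY, mul_assoc, ← map_mul, ← map_mul]
    have h1 := congrArg (fun z : chartClosure ↥(A.comap ι) (ModelField K₁ (M * p))
      (ndX (M * p)) => ndBc ι (z : ModelField K₁ (M * p))) hrel
    rw [show ((dB * ((HqB - HB ^ p) * (HB - HqB ^ p)) :
        chartClosure ↥(A.comap ι) (ModelField K₁ (M * p)) (ndX (M * p))) :
        ModelField K₁ (M * p)) = (dB : ModelField K₁ (M * p)) *
          (((HqB - HB ^ p : chartClosure ↥(A.comap ι) (ModelField K₁ (M * p))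
            (ndX (M * p))) : ModelField K₁ (M * p)) *
          ((HB - HqB ^ p : chartClosure ↥(A.comap ι) (ModelField K₁ (M * p))
            (ndX (M * p))) : ModelField K₁ (M * p))) from rfl] at h1
    rw [h1]
    rw [show ((algebraMap ↥(A.comap ι) (chartClosure ↥(A.comap ι) (ModelField K₁ (M * p))
        (ndX (M * p))) ((p : ℕ) : ↥(A.comap ι)) * ψB :
        chartClosure ↥(A.comap ι) (ModelField K₁ (M * p)) (ndX (M * p))) :
        ModelField K₁ (M * p)) = algebraMap ↥(A.comap ι) (ModelField K₁ (M * p))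
          ((p : ℕ) : ↥(A.comap ι)) * (ψB : ModelField K₁ (M * p)) from rfl]
    rw [map_mul, ndBc_algebraMap]
    congr 2
    simp
  · intro hmem
    exact hss.D_not_mem ((mem_ndIdeal_iff ι A P hdeg _ hy dB).2 hmem)
  · intro hmem
    exact hss.Ψ_not_mem ((mem_ndIdeal_iff ι A P hdeg _ hy ψB).2 hmem)
  · rw [← hbX]
    exact (mem_ndIdeal_iff ι A P hdeg _ hy _).1 hss.X_mem
  · rw [← hbY]
    exact (mem_ndIdeal_iff ι A P hdeg _ hy _).1 hss.Y_mem
  · have := nd_red_zero_of_vInf ι A hXV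
    have e : ndBc ι ((HqB : ModelField K₁ (M * p)) - (HB : ModelField K₁ (M * p)) ^ p) =
        nmX M p h.four := hbX
    rw [e] at this
    exact this
  · have := nd_red0_zero_of_vZero ι A M p h.cop W hWbc hYV
    have e : ndBc ι ((HB : ModelField K₁ (M * p)) - (HqB : ModelField K₁ (M * p)) ^ p) =
        nmYc M p h.four := hbY
    rw [e] at this
    exact this

end Rel

/-! ### The unconditional statements -/

/-- **(a)** : `d X Y = p ψ` at the nodes, for the canonical coordinates `X = nmX`, `Y = nmYc`. -/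
theorem nmCrossRel (M p : ℕ) [NeZero M] [NeZero p] : NmCrossRelStatement M p :=
  fun A h P hOo hZ hy => nmCross_rel_field (algebraMap ℚ Qb) M p A h P hOo hZ hy

/-- **(b)** : the nodes are not cuspidal. -/
theorem nmCrossNonCusp (M p : ℕ) [NeZero M] [NeZero p] : NmCrossNonCuspStatement M p := by
  intro A h P hOo hZ
  obtain ⟨ζ, hζ⟩ := HasEnoughRootsOfUnity.exists_primitiveRoot Qb M
  have hint : IsIntegral ℚ ζ := ((AlgebraicClosure.isAlgebraic ℚ).isAlgebraic ζ).isIntegral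
  haveI : FiniteDimensional ℚ ↥(IntermediateField.adjoin ℚ ({ζ} : Set Qb)) :=
    IntermediateField.adjoin.finiteDimensional hint
  have hζK : ∃ ζ' : ↥(IntermediateField.adjoin ℚ ({ζ} : Set Qb)), IsPrimitiveRoot ζ' M :=
    ⟨⟨ζ, IntermediateField.mem_adjoin_simple_self ℚ ζ⟩,
      IsPrimitiveRoot.of_map_of_injective
        (f := algebraMap ↥(IntermediateField.adjoin ℚ ({ζ} : Set Qb)) Qb) hζ
        (algebraMap ↥(IntermediateField.adjoin ℚ ({ζ} : Set Qb)) Qb).injective⟩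
  exact nmCross_noncusp_field (algebraMap ↥(IntermediateField.adjoin ℚ ({ζ} : Set Qb)) Qb) M p
    hζK A h P hOo hZ

/-- **`[XY]` from part (c)** : `NmCrossStatement M p` is reduced to the statement on the
branches `NmCrossOrdStatement M p`. -/
theorem nmCross_of_ord (M p : ℕ) [NeZero M] [NeZero p] (hc : NmCrossOrdStatement M p) :
    NmCrossStatement M p :=
  nmCross_of_parts (nmCrossRel M p) (nmCrossNonCusp M p) hc

end Fermat.Agent.H3.ORD

end
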