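import Fermat.Agent.H84.ORD.NodalSpecA
import Fermat.Agent.H66.ORD.RangeMul
import Fermat.Agent.H62.SS.AtkinLehnerModel
import Fermat.Agent.H70.SS.RatPlaceModular
import Fermat.Agent.H7.SS2.Vertical
import Fermat.Agent.H11.SS2.Defs
import Fermat.Agent.H55.Zeta.TMBModular

/-!
# P-ORD, block B1, descent rows : THE DICTIONARY between the `ℚ̄`-level and the models (helper3)

`A` a valuation subring of `ℚ̄` over `p`, `P` a place of `F = FLb N = ℚ̄(X₀(N))`,
`ι : K₁ → ℚ̄` a number field, `A₀ = A.comap ι = A ∩ K₁`, `F₁ = ModelField K₁ N`,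
`bc = klBc ι : F₁ → F`, `y₁ ∈ F₁` with `bc y₁ = nmY A P` (the chart of `P`),
`B₀ = chartClosure A₀ F₁ y₁`.

* `nd_bc_mem_nmChart` : `bc (B₀) ⊆ B̄ = nmChart N A (bc y₁)`;
* `nd_nmChart_le_nmComp` : `B̄ (nmY A P) ⊆ {f | f(P) ∈ A}`;
* `ndIdeal` : the centre of `P` on `B₀` : `{b ∈ B₀ | (bc b)(P) ∈ 𝔪_A}`; `mem_ndIdeal_iff`;
  `ndIdeal_isMaximal`; `nd_algebraMap_mem_ndIdeal`;
* `nd_through_vInf`, `nd_through_vZero` : `Through` from the ideal forms `NmIdealOo`,
  `NmIdealZero`;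
* `nd_exists_W` : the Atkin-Lehner automorphism of the model compatible with `nmW`;
* `nd_red_zero_of_vInf`, `nd_red0_zero_of_vZero` : elements of the maximal ideals of the model
  Gauss rings have reduction `0` at the `ℚ̄`-level.
-/

set_option autoImplicit false
set_option maxSynthPendingDepth 3
set_option linter.unusedSectionVars false
set_option linter.unusedVariables false
set_option linter.style.haveILetI false
set_option synthInstance.maxHeartbeats 400000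
set_option maxHeartbeats 1600000

noncomputable section

open AlgebraicCurve ModularCurve

namespace Fermat.Agent.H3.ORD

open Fermat.Agent.H72.FF Fermat.Agent.H66 Fermat.Agent.H84.ORD
open Fermat.Agent.H22.KL Fermat.Agent.H93.KL Fermat.Agent.H7.SS2 Fermat.Agent.H7.SS
open Fermat.Agent.H9.E6 Fermat.Agent.H11.SS2 Fermat.Agent.H82.SS

/-! ### Values at a place -/

section Values

variable {N : ℕ} (A : ValuationSubring Qb) (P : Place Qb (FLb N))

theorem nd_hasValue_one : HasValue P (1 : FLb N) 1 := by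
  rw [← map_one (algebraMap Qb (FLb N))]
  exact nm_hasValue_const P 1

theorem nd_hasValue_pow {f : FLb N} {c : Qb} (hf : HasValue P f c) (n : ℕ) :
    HasValue P (f ^ n) (c ^ n) := by
  induction n with
  | zero => rw [pow_zero, pow_zero]; exact nd_hasValue_one P
  | succ n ih => rw [pow_succ, pow_succ]; exact nm_hasValue_mul P ih hf

theorem nd_mem_nmMax_iff (hdeg : P.deg = 1) {f : FLb N} :
    f ∈ nmMax A P ↔ f ∈ (nmComp A P hdeg).nonunits :=
  (mem_nonunits_nmComp_iff A P hdeg).symm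

theorem nd_nmMax_subset (hdeg : P.deg = 1) {f : FLb N} (hf : f ∈ nmMax A P) :
    f ∈ nmComp A P hdeg :=
  ValuationSubring.nonunits_subset ((nd_mem_nmMax_iff A P hdeg).1 hf)

end Values

/-! ### Charts -/

section Charts

variable {N : ℕ} [NeZero N] (A : ValuationSubring Qb) (P : Place Qb (FLb N))

theorem nd_nmY_mem_nmComp (hdeg : P.deg = 1) : nmY A P ∈ nmComp A P hdeg := by
  classical
  unfold nmY
  split_ifs with h
  · exact h
  · exact ((nmComp A P hdeg).mem_or_inv_mem _).resolve_left h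

theorem nd_nmY_eq_or : nmY A P = nmJ N ∨ nmY A P = (nmJ N)⁻¹ := by
  classical
  unfold nmY
  split_ifs with h
  · exact Or.inl rfl
  · exact Or.inr rfl

theorem nd_nmY_eq_nmJ_iff : nmY A P = nmJ N ↔ nmJ N ∈ nmInt A P := by
  classical
  unfold nmY
  constructor
  · intro h
    by_contra hn
    rw [if_neg hn] at h
    -- `j⁻¹ = j` : then `j ∈ nmInt` anyway
    have hdeg : P.deg = 1 := Fermat.Agent.H70.SS.ss_deg_eq_one_bar N P
    have h1 : (nmJ N)⁻¹ ∈ nmComp A P hdeg :=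
      ((nmComp A P hdeg).mem_or_inv_mem _).resolve_left hn
    rw [h] at h1
    exact hn h1
  · intro h
    rw [if_pos h]

theorem nd_nmPoly_le_nmComp (hdeg : P.deg = 1) :
    nmPoly N A (nmY A P) ≤ (nmComp A P hdeg).toSubring := by
  unfold nmPoly
  rw [Subring.closure_le]
  rintro f (⟨c, hc, rfl⟩ | hf)
  · exact algebraMap_mem_nmComp A P hdeg hc
  · rw [Set.mem_singleton_iff] at hf
    rw [hf]
    exact nd_nmY_mem_nmComp A P hdeg

/-- `B̄(y) ⊆ {f | f(P) ∈ A}` for the chart `y` of `P`. -/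
theorem nd_nmChart_le_nmComp (hdeg : P.deg = 1) {f : FLb N}
    (hf : f ∈ nmChart N A (nmY A P)) : f ∈ nmComp A P hdeg := by
  rw [mem_nmChart_iff] at hf
  obtain ⟨p, hp, hpf⟩ := hf
  let φ : ↥(nmPoly N A (nmY A P)) →+* ↥(nmComp A P hdeg) :=
    Subring.inclusion (nd_nmPoly_le_nmComp A P hdeg)
  have hint : IsIntegral ↥(nmComp A P hdeg) f := by
    refine ⟨p.map φ, hp.map φ, ?_⟩
    rw [Polynomial.eval₂_map]
    exact hpf
  obtain ⟨y, hy⟩ := IsIntegrallyClosed.isIntegral_iff.mp hint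
  rw [← hy]
  exact y.2

end Charts

/-! ### Base change of the charts -/

section BaseChange

variable {K₁ : Type} [Field K₁] [Algebra ℚ K₁] (ι : K₁ →+* Qb) (A : ValuationSubring Qb)
  {N : ℕ} [NeZero N]
  [Algebra ↥(A.comap ι) (ModelField K₁ N)] [IsScalarTower ↥(A.comap ι) K₁ (ModelField K₁ N)]

/-- the base change `F₁ → F` -/
abbrev ndBc : ModelField K₁ N →+* FLb N := klBc ι (modularFunctionFieldFull N)

theorem ndBc_algebraMap (a : ↥(A.comap ι)) :
    ndBc ι (N := N) (algebraMap ↥(A.comap ι) (ModelField K₁ N) a) =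
      algebraMap Qb (FLb N) (ι (a : K₁)) := by
  rw [IsScalarTower.algebraMap_apply ↥(A.comap ι) K₁ (ModelField K₁ N)]
  exact Fermat.Agent.H62.SS.klBc_algebraMap' ι (modularFunctionFieldFull N) (a : K₁)

theorem nd_bc_mem_nmPoly (y₁ : ModelField K₁ N) {b : ModelField K₁ N}
    (hb : b ∈ chartRing ↥(A.comap ι) (ModelField K₁ N) y₁) :
    ndBc ι b ∈ nmPoly N A (ndBc ι y₁) := by
  unfold chartRing at hb
  induction hb using Algebra.adjoin_induction with
  | mem x hx =>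
    rw [Set.mem_singleton_iff] at hx
    rw [hx]
    exact Subring.subset_closure (Or.inr rfl)
  | algebraMap r =>
    rw [ndBc_algebraMap]
    exact Subring.subset_closure (Or.inl ⟨ι (r : K₁), r.2, rfl⟩)
  | add x y _ _ hx hy =>
    rw [map_add]
    exact add_mem hx hy
  | mul x y _ _ hx hy =>
    rw [map_mul]
    exact mul_mem hx hy

/-- `bc (B₀(y₁)) ⊆ B̄(bc y₁)`. -/
theorem nd_bc_mem_nmChart (y₁ : ModelField K₁ N) {b : ModelField K₁ N}
    (hb : b ∈ chartClosure ↥(A.comap ι) (ModelField K₁ N) y₁) :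
    ndBc ι b ∈ nmChart N A (ndBc ι y₁) := by
  rw [mem_nmChart_iff]
  have hb' : IsIntegral ↥(chartRing ↥(A.comap ι) (ModelField K₁ N) y₁) b := hb
  obtain ⟨p, hp, hpb⟩ := hb'
  let φ : ↥(chartRing ↥(A.comap ι) (ModelField K₁ N) y₁) →+* ↥(nmPoly N A (ndBc ι y₁)) :=
    RingHom.codRestrict
      ((ndBc ι (N := N)).comp
        (chartRing ↥(A.comap ι) (ModelField K₁ N) y₁).val.toRingHom)
      (nmPoly N A (ndBc ι y₁)) (fun x => nd_bc_mem_nmPoly ι A y₁ x.2)
  refine ⟨p.map φ, hp.map φ, ?_⟩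
  rw [Polynomial.eval₂_map]
  have e : (nmPoly N A (ndBc ι y₁)).subtype.comp φ =
      (ndBc ι (N := N)).comp
        (algebraMap ↥(chartRing ↥(A.comap ι) (ModelField K₁ N) y₁) (ModelField K₁ N)) := rfl
  rw [e, ← Polynomial.hom_eval₂]
  have h0 : Polynomial.eval₂
      (algebraMap ↥(chartRing ↥(A.comap ι) (ModelField K₁ N) y₁) (ModelField K₁ N)) b p = 0 :=
    hpb
  rw [h0, map_zero]

end BaseChange

/-! ### The centre of a place on the model chart -/

section Centre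

variable {K₁ : Type} [Field K₁] [Algebra ℚ K₁] (ι : K₁ →+* Qb) (A : ValuationSubring Qb)
  {N : ℕ} [NeZero N]
  [Algebra ↥(A.comap ι) (ModelField K₁ N)] [IsScalarTower ↥(A.comap ι) K₁ (ModelField K₁ N)]
  (P : Place Qb (FLb N)) (hdeg : P.deg = 1) (y₁ : ModelField K₁ N) (hy : ndBc ι y₁ = nmY A P)

/-- `B₀ → {f | f(P) ∈ A}` -/
def ndHom : ↥(chartClosure ↥(A.comap ι) (ModelField K₁ N) y₁) →+* ↥(nmComp A P hdeg) :=
  RingHom.codRestrict
    ((ndBc ι (N := N)).comp (chartClosure ↥(A.comap ι) (ModelField K₁ N) y₁).val.toRingHom)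
    (nmComp A P hdeg).toSubring
    (fun b => nd_nmChart_le_nmComp A P hdeg (hy ▸ nd_bc_mem_nmChart ι A y₁ b.2))

theorem coe_ndHom (b : ↥(chartClosure ↥(A.comap ι) (ModelField K₁ N) y₁)) :
    ((ndHom ι A P hdeg y₁ hy b : ↥(nmComp A P hdeg)) : FLb N) =
      ndBc ι (b : ModelField K₁ N) := rfl

/-- the centre of `P` on the model chart `B₀` -/
def ndIdeal : Ideal ↥(chartClosure ↥(A.comap ι) (ModelField K₁ N) y₁) :=
  Ideal.comap (ndHom ι A P hdeg y₁ hy) (IsLocalRing.maximalIdeal ↥(nmComp A P hdeg))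

theorem mem_ndIdeal_iff (b : ↥(chartClosure ↥(A.comap ι) (ModelField K₁ N) y₁)) :
    b ∈ ndIdeal ι A P hdeg y₁ hy ↔ ndBc ι (b : ModelField K₁ N) ∈ nmMax A P := by
  rw [ndIdeal, Ideal.mem_comap, nd_mem_nmMax_iff A P hdeg,
    ValuationSubring.mem_nonunits_iff_exists_mem_maximalIdeal]
  constructor
  · intro h
    exact ⟨(ndHom ι A P hdeg y₁ hy b).2, h⟩
  · rintro ⟨_, h⟩
    exact h

theorem ndIdeal_ne_top : ndIdeal ι A P hdeg y₁ hy ≠ ⊤ := by
  intro h
  have h1 : (1 : ↥(chartClosure ↥(A.comap ι) (ModelField K₁ N) y₁)) ∈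
      ndIdeal ι A P hdeg y₁ hy := by
    rw [h]
    trivial
  rw [ndIdeal, Ideal.mem_comap, map_one] at h1
  exact (IsLocalRing.maximalIdeal.isMaximal _).ne_top
    ((Ideal.eq_top_iff_one _).2 h1)

include hdeg hy in
/-- the value of an element of the model chart -/
theorem nd_exists_value (b : ↥(chartClosure ↥(A.comap ι) (ModelField K₁ N) y₁)) :
    ∃ c ∈ A, HasValue P (ndBc ι (b : ModelField K₁ N)) c :=
  (ndHom ι A P hdeg y₁ hy b).2

theorem nd_not_mem_ndIdeal_iff (b : ↥(chartClosure ↥(A.comap ι) (ModelField K₁ N) y₁)) :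
    b ∉ ndIdeal ι A P hdeg y₁ hy ↔
      ∃ c ∈ A, c ∉ A.nonunits ∧ HasValue P (ndBc ι (b : ModelField K₁ N)) c := by
  rw [mem_ndIdeal_iff]
  constructor
  · intro h
    obtain ⟨c, hc, hv⟩ := nd_exists_value ι A P hdeg y₁ hy b
    exact ⟨c, hc, fun hcn => h ⟨c, hcn, hv⟩, hv⟩
  · rintro ⟨c, hc, hcn, hv⟩ ⟨c', hc', hv'⟩
    rw [nm_hasValue_unique P hv hv'] at hcn
    exact hcn hc'

/-- **The centre is a maximal ideal** (the residue field of `A` is algebraic over `𝔽_p`). -/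
theorem ndIdeal_isMaximal (p : ℕ) [Fact p.Prime] (hA : A.LiesOverPrime p) :
    (ndIdeal ι A P hdeg y₁ hy).IsMaximal := by
  rw [Ideal.isMaximal_iff]
  refine ⟨fun h1 => ndIdeal_ne_top ι A P hdeg y₁ hy ((Ideal.eq_top_iff_one _).2 h1), ?_⟩
  intro J b hIJ hb hbJ
  obtain ⟨c, hcA, hcn, hv⟩ := (nd_not_mem_ndIdeal_iff ι A P hdeg y₁ hy b).1 hb
  -- the residue of `c` has finite order
  obtain ⟨s, hs, hcs⟩ := Fermat.Agent.H55.Zeta.residueField_frob_orbit A p hA
    (IsLocalRing.residue A ⟨c, hcA⟩)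
  have hres0 : IsLocalRing.residue A ⟨c, hcA⟩ ≠ 0 := by
    intro h0
    rw [IsLocalRing.residue_eq_zero_iff, ← ValuationSubring.coe_mem_nonunits_iff] at h0
    exact hcn h0
  have hn : 1 ≤ p ^ s := Nat.one_le_pow _ _ (Fact.out : p.Prime).pos
  obtain ⟨n, hn'⟩ : ∃ n, p ^ s = n + 1 := ⟨p ^ s - 1, by omega⟩
  have hone : (IsLocalRing.residue A ⟨c, hcA⟩) ^ n = 1 := by
    rw [hn', pow_succ] at hcs
    have h2 : (IsLocalRing.residue A ⟨c, hcA⟩) ^ n * IsLocalRing.residue A ⟨c, hcA⟩ =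
        1 * IsLocalRing.residue A ⟨c, hcA⟩ := by rw [hcs, one_mul]
    exact mul_right_cancel₀ hres0 h2
  have hcn1 : c ^ n - 1 ∈ A.nonunits := by
    have h3 : IsLocalRing.residue A (⟨c, hcA⟩ ^ n - 1) = 0 := by
      rw [map_sub, map_pow, map_one, hone, sub_self]
    rw [IsLocalRing.residue_eq_zero_iff, ← ValuationSubring.coe_mem_nonunits_iff] at h3
    exact h3
  have hmem : b ^ n - 1 ∈ ndIdeal ι A P hdeg y₁ hy := by
    rw [mem_ndIdeal_iff]
    refine ⟨c ^ n - 1, hcn1, ?_⟩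
    have e : ndBc ι ((b ^ n - 1 : ↥(chartClosure ↥(A.comap ι) (ModelField K₁ N) y₁)) :
        ModelField K₁ N) = (ndBc ι (b : ModelField K₁ N)) ^ n - 1 := by
      push_cast
      rw [map_sub, map_pow, map_one]
    rw [e]
    exact nm_hasValue_sub P (nd_hasValue_pow P hv n) (nd_hasValue_one P)
  have hn0 : n ≠ 0 := by
    rintro rfl
    have : p ^ s = 1 := by omega
    have h2 : 2 ≤ p ^ s := le_trans (Fact.out : p.Prime).two_le
      (Nat.le_self_pow (by omega) p)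
    omega
  have h1 : (1 : ↥(chartClosure ↥(A.comap ι) (ModelField K₁ N) y₁)) =
      b ^ n - (b ^ n - 1) := by ring
  rw [h1]
  exact J.sub_mem (J.pow_mem_of_mem hbJ n (Nat.pos_of_ne_zero hn0)) (hIJ hmem)

/-- non-units of `A₀` lie in the centre -/
theorem nd_algebraMap_mem_ndIdeal {a : ↥(A.comap ι)} (ha : ¬ IsUnit a) :
    algebraMap ↥(A.comap ι) ↥(chartClosure ↥(A.comap ι) (ModelField K₁ N) y₁) a ∈
      ndIdeal ι A P hdeg y₁ hy := by
  rw [mem_ndIdeal_iff]
  have e : ((algebraMap ↥(A.comap ι) ↥(chartClosure ↥(A.comap ι) (ModelField K₁ N) y₁) a :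
      ↥(chartClosure ↥(A.comap ι) (ModelField K₁ N) y₁)) : ModelField K₁ N) =
      algebraMap ↥(A.comap ι) (ModelField K₁ N) a := rfl
  rw [e, ndBc_algebraMap]
  refine ⟨ι (a : K₁), ?_, nm_hasValue_const P _⟩
  -- `ι a` is a non-unit of `A`
  have h1 : (a : K₁) ∈ (A.comap ι).nonunits := by
    rw [ValuationSubring.mem_nonunits_iff_exists_mem_maximalIdeal]
    exact ⟨a.2, (IsLocalRing.mem_maximalIdeal _).2 ha⟩
  rw [ValuationSubring.mem_nonunits_iff_or] at h1 ⊢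
  rcases h1 with h1 | h1
  · left
    rw [h1, map_zero]
  · right
    intro h2
    apply h1
    rw [ValuationSubring.mem_comap, map_inv₀]
    exact h2

end Centre

/-! ### The Gauss rings -/

section Gauss

variable {K₁ : Type} [Field K₁] [Algebra ℚ K₁] (ι : K₁ →+* Qb) (A : ValuationSubring Qb)
  [IsDiscreteValuationRing ↥(A.comap ι)] {N : ℕ} [NeZero N]

/-- elements of the model Gauss ring lie in the Gauss ring of `F` -/
theorem nd_mem_gaussOBar_of_vInf {z : ModelField K₁ N}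
    (hz : z ∈ vInf K₁ ↥(A.comap ι) N) : ndBc ι z ∈ gaussOBar N A :=
  Fermat.Agent.H66.ORD.ord_bc_inV ι A _ ((mem_vInf_iff z).1 hz)

/-- elements of the maximal ideal of the model Gauss ring reduce to zero -/
theorem nd_red_zero_of_vInf {z : ModelField K₁ N}
    (hz : z ∈ (vInf K₁ ↥(A.comap ι) N).nonunits) :
    ∃ h : ndBc ι z ∈ gaussOBar N A, nmRedOo N A ⟨ndBc ι z, h⟩ = 0 := by
  rw [mem_nonunits_vInf_iff] at hz
  obtain ⟨hmem, hred⟩ := Fermat.Agent.H66.ORD.ord_bc_inM ι A _ hz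
  refine ⟨hmem, ?_⟩
  rw [nmRedOo_eq_zero_iff, gaussRedBar_apply]
  exact hred

variable [Algebra ↥(A.comap ι) (ModelField K₁ N)] [IsScalarTower ↥(A.comap ι) K₁ (ModelField K₁ N)]
  (P : Place Qb (FLb N)) (hdeg : P.deg = 1) (y₁ : ModelField K₁ N) (hy : ndBc ι y₁ = nmY A P)

/-- **`Through V_∞`** from the ideal form of "the centre lies on `C_∞`". -/
theorem nd_through_vInf
    (hOo : ∀ f ∈ nmChart N A (nmY A P), ∀ h : f ∈ gaussOBar N A,
      nmRedOo N A ⟨f, h⟩ = 0 → f ∈ nmMax A P) :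
    Through ↥(A.comap ι) (ModelField K₁ N) y₁ (ndIdeal ι A P hdeg y₁ hy)
      (vInf K₁ ↥(A.comap ι) N) := by
  intro s hs
  rw [mem_ndIdeal_iff]
  obtain ⟨h, hred⟩ := nd_red_zero_of_vInf ι A hs
  exact hOo _ (hy ▸ nd_bc_mem_nmChart ι A y₁ s.2) h hred

end Gauss

/-! ### The Atkin-Lehner automorphism -/

section AL

variable {K₁ : Type} [Field K₁] [Algebra ℚ K₁] (ι : K₁ →+* Qb) (A : ValuationSubring Qb)
  (M p : ℕ) [NeZero M] [NeZero p] (hcop : Nat.Coprime M p)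

theorem nd_bc_heckeAlpha (f : ModelField K₁ M) :
    klBc ι (modularFunctionFieldFull (M * p)) (heckeAlphaBar K₁ M p f)
      = heckeAlphaBar Qb M p (klBc ι (modularFunctionFieldFull M) f) := by
  apply Subtype.ext
  rw [klBc_coe, coe_heckeAlphaBar, coe_heckeAlphaBar, klBc_coe]

theorem nd_bc_heckeBeta (f : ModelField K₁ M) :
    klBc ι (modularFunctionFieldFull (M * p)) (heckeBetaBar K₁ M p f)
      = heckeBetaBar Qb M p (klBc ι (modularFunctionFieldFull M) f) := by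
  apply Subtype.ext
  rw [klBc_coe, coe_heckeBetaBar, coe_heckeBetaBar, klBc_coe]
  exact coeffMap_qExpand ι p _

/-- the Atkin-Lehner automorphism of the model, compatible with `nmW` -/
theorem nd_exists_W :
    ∃ W₁ : ModelField K₁ (M * p) ≃ₐ[K₁] ModelField K₁ (M * p),
      IsAtkinLehnerModel K₁ M p W₁ ∧
      ∀ f, klBc ι (modularFunctionFieldFull (M * p)) (W₁ f) =
        nmW M p hcop (klBc ι (modularFunctionFieldFull (M * p)) f) := by
  obtain ⟨hgens, hα, hβ, hinv⟩ := nmW_spec M p hcop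
  have hrat : ∀ w : ↥(modularFunctionFieldFull (M * p)),
      ∃ w' : ↥(modularFunctionFieldFull (M * p)),
        nmW M p hcop (Fermat.Agent.H62.SS.ratBar (modularFunctionFieldFull (M * p)) w)
          = Fermat.Agent.H62.SS.ratBar (modularFunctionFieldFull (M * p)) w' := by
    refine Fermat.Agent.H62.SS.rat_stable (modularFunctionFieldFull (M * p))
      (divisorExpansions (M * p)) rfl (nmW M p hcop) ?_
    rintro x ⟨d, hd0, hd, rfl⟩ hxF
    obtain ⟨d'', hd0'', hd'', h1, -⟩ := hgens d hd0 hd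
    refine ⟨⟨qExpand ℚ d'' jq, jqd_mem_full (M * p) hd''⟩, ?_⟩
    exact h1
  obtain ⟨W₁, hW₁⟩ := Fermat.Agent.H62.SS.exists_descent ι (modularFunctionFieldFull (M * p))
    (nmW M p hcop) hinv hrat
  have hbinj : Function.Injective (klBc ι (modularFunctionFieldFull (M * p))) :=
    (klBc ι (modularFunctionFieldFull (M * p))).injective
  refine ⟨W₁, ⟨fun f => ?_, fun f => ?_⟩, hW₁⟩
  · apply hbinj
    rw [hW₁, nd_bc_heckeAlpha, hα, nd_bc_heckeBeta]
  · apply hbinj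
    rw [hW₁, nd_bc_heckeBeta, hβ, nd_bc_heckeAlpha]

variable [IsDiscreteValuationRing ↥(A.comap ι)]

/-- elements of the maximal ideal of the model Gauss ring at `0` reduce to zero -/
theorem nd_red0_zero_of_vZero (W₁ : ModelField K₁ (M * p) ≃ₐ[K₁] ModelField K₁ (M * p))
    (hW₁ : ∀ f, klBc ι (modularFunctionFieldFull (M * p)) (W₁ f) =
      nmW M p hcop (klBc ι (modularFunctionFieldFull (M * p)) f))
    {z : ModelField K₁ (M * p)} (hz : z ∈ (vZero K₁ ↥(A.comap ι) (M * p) W₁).nonunits) :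
    ∃ h : ndBc ι z ∈ nmV0 M p hcop A, nmRed0 M p hcop A ⟨ndBc ι z, h⟩ = 0 := by
  rw [mem_nonunits_vZero_iff] at hz
  obtain ⟨h, hred⟩ := nd_red_zero_of_vInf ι A hz
  have key : ∀ (g : FLb (M * p)) (hg : g ∈ gaussOBar (M * p) A),
      nmRedOo (M * p) A ⟨g, hg⟩ = 0 → g = nmW M p hcop (ndBc ι z) →
      ∃ h : ndBc ι z ∈ nmV0 M p hcop A, nmRed0 M p hcop A ⟨ndBc ι z, h⟩ = 0 := by
    intro g hg hr hgeq
    subst hgeq
    exact ⟨hg, hr⟩
  exact key _ h hred (hW₁ z)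

/-- elements of the model Gauss ring at `0` lie in `V_0` -/
theorem nd_mem_nmV0_of_vZero (W₁ : ModelField K₁ (M * p) ≃ₐ[K₁] ModelField K₁ (M * p))
    (hW₁ : ∀ f, klBc ι (modularFunctionFieldFull (M * p)) (W₁ f) =
      nmW M p hcop (klBc ι (modularFunctionFieldFull (M * p)) f))
    {z : ModelField K₁ (M * p)} (hz : z ∈ vZero K₁ ↥(A.comap ι) (M * p) W₁) :
    ndBc ι z ∈ nmV0 M p hcop A := by
  rw [mem_vZero_iff] at hz
  have h := nd_mem_gaussOBar_of_vInf ι A hz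
  rw [mem_nmV0_iff]
  have e : nmW M p hcop (ndBc ι z) = ndBc ι (W₁ z) := (hW₁ z).symm
  rw [e]
  exact h

variable [Algebra ↥(A.comap ι) (ModelField K₁ (M * p))]
  [IsScalarTower ↥(A.comap ι) K₁ (ModelField K₁ (M * p))]
  (P : Place Qb (FLb (M * p))) (hdeg : P.deg = 1) (y₁ : ModelField K₁ (M * p))
  (hy : ndBc ι y₁ = nmY A P)

/-- **`Through V_0`** from the ideal form of "the centre lies on `C_0`". -/
theorem nd_through_vZero (W₁ : ModelField K₁ (M * p) ≃ₐ[K₁] ModelField K₁ (M * p))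
    (hW₁ : ∀ f, klBc ι (modularFunctionFieldFull (M * p)) (W₁ f) =
      nmW M p hcop (klBc ι (modularFunctionFieldFull (M * p)) f))
    (hZ : NmIdealZero M p hcop A P) :
    Through ↥(A.comap ι) (ModelField K₁ (M * p)) y₁ (ndIdeal ι A P hdeg y₁ hy)
      (vZero K₁ ↥(A.comap ι) (M * p) W₁) := by
  intro s hs
  rw [mem_ndIdeal_iff]
  obtain ⟨h, hred⟩ := nd_red0_zero_of_vZero ι A M p hcop W₁ hW₁ hs
  exact hZ _ (hy ▸ nd_bc_mem_nmChart ι A y₁ s.2) h hred

end AL

/-! ### The coordinate `j` and the standing data of a number field -/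

section Coord

variable {K₁ : Type} [Field K₁] [Algebra ℚ K₁] (ι : K₁ →+* Qb) (N : ℕ) [NeZero N]

theorem nd_jq_mem : coeffEmb K₁ jq ∈ laurentBaseChange K₁ (modularFunctionFieldFull N) :=
  coeffEmb_mem_laurentBaseChange K₁ (by
    have h := jqd_mem_full N (one_dvd N)
    rwa [qExpand_one_apply] at h)

/-- the coordinate `j` of the model -/
def ndX : ModelField K₁ N := ⟨coeffEmb K₁ jq, nd_jq_mem N⟩

theorem coe_ndX : ((ndX N : ModelField K₁ N) : LaurentSeries K₁) = coeffEmb K₁ jq := rfl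

theorem ndBc_ndX : ndBc ι (ndX N : ModelField K₁ N) = nmJ N := by
  apply Subtype.ext
  show coeffMap ι (coeffEmb K₁ jq) = coeffEmb Qb (qExpand ℚ 1 jq)
  rw [qExpand_one_apply, coeffEmb, coeffEmb, coeffMap_coeffMap]
  exact coeffMap_congr (Subsingleton.elim _ _) _

end Coord

/-- `p` is not a unit of `A ∩ K₁` -/
theorem nd_natCast_not_isUnit {K₁ : Type} [Field K₁] (ι : K₁ →+* Qb) (A : ValuationSubring Qb)
    {p : ℕ} (hA : A.LiesOverPrime p) : ¬ IsUnit ((p : ℕ) : ↥(A.comap ι)) := by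
  have h1 := Fermat.Agent.H93.KL.natCast_mem_nonunits_comap ι A hA
  rw [ValuationSubring.mem_nonunits_iff_exists_mem_maximalIdeal] at h1
  obtain ⟨hmem, hmax⟩ := h1
  rw [IsLocalRing.mem_maximalIdeal, mem_nonunits_iff] at hmax
  intro hu
  apply hmax
  have e : (⟨(p : K₁), hmem⟩ : ↥(A.comap ι)) = ((p : ℕ) : ↥(A.comap ι)) :=
    Subtype.ext (by simp)
  rw [e]
  exact hu

/-- if `j(P) ∉ A`, then `j⁻¹ (P) ∈ 𝔪_A` -/
theorem nd_inv_nmJ_mem_nmMax {N : ℕ} [NeZero N] (A : ValuationSubring Qb)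
    (P : Place Qb (FLb N)) (h : nmJ N ∉ nmInt A P) : (nmJ N)⁻¹ ∈ nmMax A P := by
  have hdeg : P.deg = 1 := Fermat.Agent.H70.SS.ss_deg_eq_one_bar N P
  rw [nd_mem_nmMax_iff A P hdeg, ValuationSubring.mem_nonunits_iff]
  have h1 : ¬ (nmComp A P hdeg).valuation (nmJ N) ≤ 1 := fun h' =>
    h ((ValuationSubring.valuation_le_one_iff _ _).1 h')
  rw [map_inv₀]
  exact inv_lt_one_of_one_lt₀ (not_le.1 h1)

end Fermat.Agent.H3.ORD

end
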