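/-
P-ORD (S33), block B1-NODE, helper3: THE LOCAL CORE AT A CROSSING POINT, in the chart language of
P-SS (`chartClosure`, `gaussClosure`, `CentredAt`), over an ARBITRARY discrete valuation ring `A`
(ramified bases allowed: only normality of `B(y)` = local Hartogs is used, never regularity).

Setting (`NodeLocal`): `𝔪 ∋ ϖ` a maximal ideal of `B = B(y)`, `V_∞`, `V_0` two valuation rings of
`E` containing the Gauss closure `C(y)`, with `V_∞ ∩ V_0 ⊆ C(y)`, both through `𝔪`;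
`X, Y ∈ B` with `d X Y = q₀ ψ`, `d, ψ ∈ B ∖ 𝔪`, `q₀ ∈ A ∖ {0}`, `Y` a unit of `V_∞` and `X` a
unit of `V_0` (so `Y` is the parameter of the node on the branch `C_∞` and `X` on `C_0`).

"`u` has order `a` at the node on the branch `C_∞`" is expressed by `OrdAtNode`:
`t u Y^(-a) ≡ s  mod 𝔪_{V_∞}` with `s, t ∈ B ∖ 𝔪`.

Results (`u ∈ V_∞` of order `a` at the node, without pole centred at `𝔪`, `c u ∈ V_0`):
* `NodeChart.hartogs_value` : `z ∈ V_∞ ∩ V_0` without pole centred at `𝔪` is `β / b`,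
  `b ∈ B ∖ 𝔪`, `β ∈ B`, and `β ∈ 𝔪` if `z` has a zero centred at `𝔪`   (= `HartogsAt`);
* `NodeChart.glue`, `NodeChart.glue_value` : a unit of `V_∞` and of `V_0` without zero or pole
  centred at `𝔪` is a unit of `B_𝔪` : `b u = β` with `b, β ∈ B ∖ 𝔪`      (gluing (M4));
* `NodeLocal.node_le` : `q₀ ^ a * c ∈ V_0`                      (slope inequality (M3));
* `NodeLocal.node_lt` : `q₀ ^ a * c ∈ 𝔪_{V_0}` if a zero of `u` is centred at `𝔪`;
* `NodeLocal.Y_inv_mem_of_centred`, `NodeLocal.q_div_Y_mem` : `Y` has no zero or pole centred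
  at `𝔪` and `Y / q₀` is a unit of `V_0`                        (= `IsNodeCoordOo`);
* `NodeChart.swap`, `NodeLocal.swap` : the symmetry `∞ ↔ 0`, `X ↔ Y`.
-/
import Fermat.Agent.H4.SS.Hartogs
import Fermat.Agent.H89.KLGauss

set_option autoImplicit false
set_option linter.unusedSectionVars false
set_option linter.unusedVariables false
set_option linter.style.haveILetI false

noncomputable section

namespace Fermat.Agent.H3.ORD

open Fermat.Agent.H22.KL Fermat.Agent.H45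

variable {A : Type} [CommRing A] [IsDomain A] [IsDiscreteValuationRing A]
variable {E : Type} [Field E] [Algebra A E] [CharZero E]

/-- **A closed point on two components**: `𝔪 ∋ ϖ` a maximal ideal of `B(y)`, `V_∞`, `V_0` two
valuation rings containing the Gauss closure `C(y)`, with `V_∞ ∩ V_0 ⊆ C(y)`, both through
`𝔪`.  (No coordinates.) -/
structure NodeChart (ϖ : A) (y : E) (𝔪 : Ideal (chartClosure A E y))
    (Voo V0 : ValuationSubring E) : Prop where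
  inj : Function.Injective (algebraMap A E)
  irr : Irreducible ϖ
  trans : Transcendental A y
  fd : ∃ n : ℕ, Nonempty (Module.Basis (Fin n) (chartField A E y) E)
  max : 𝔪.IsMaximal
  mem : algebraMap A (chartClosure A E y) ϖ ∈ 𝔪
  gauss_oo : ∀ z ∈ gaussClosure A E ϖ y, z ∈ Voo
  gauss_zero : ∀ z ∈ gaussClosure A E ϖ y, z ∈ V0
  gauss_inf : ∀ z : E, z ∈ Voo → z ∈ V0 → z ∈ gaussClosure A E ϖ y
  thru_oo : ∀ s : chartClosure A E y, (s : E) ∈ Voo.nonunits → s ∈ 𝔪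
  thru_zero : ∀ s : chartClosure A E y, (s : E) ∈ V0.nonunits → s ∈ 𝔪

/-- **The local data at a crossing point** of the two components `V_∞`, `V_0`: a `NodeChart`
with coordinates `X, Y ∈ B`, `d X Y = q₀ ψ`, `d, ψ ∉ 𝔪`, `Y` a unit of `V_∞`, `X` a unit of
`V_0`. -/
structure NodeLocal (ϖ : A) (y : E) (𝔪 : Ideal (chartClosure A E y))
    (Voo V0 : ValuationSubring E) (q₀ : A) (X Y : chartClosure A E y) : Prop
    extends NodeChart ϖ y 𝔪 Voo V0 where
  q_ne : q₀ ≠ 0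
  rel : ∃ d ψ : chartClosure A E y, d ∉ 𝔪 ∧ ψ ∉ 𝔪 ∧
    d * (X * Y) = algebraMap A (chartClosure A E y) q₀ * ψ
  Y_unit_oo : (Y : E)⁻¹ ∈ Voo
  X_unit_zero : (X : E)⁻¹ ∈ V0

/-- "`u` has order `a` at the node on the branch `V`, measured by the parameter `Y`":
`t u Y^(-a) ≡ s` modulo the maximal ideal of `V`, with `s, t ∈ B ∖ 𝔪`. -/
def OrdAtNode (y : E) (𝔪 : Ideal (chartClosure A E y)) (V : ValuationSubring E)
    (Y : chartClosure A E y) (u : E) (a : ℤ) : Prop :=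
  ∃ s t : chartClosure A E y, s ∉ 𝔪 ∧ t ∉ 𝔪 ∧
    (t : E) * (u * (Y : E) ^ (-a)) - (s : E) ∈ V.nonunits

section Basic

/-- a nonzero element of a valuation ring which is not in the maximal ideal is a unit -/
theorem nl_inv_mem {V : ValuationSubring E} {x : E} (hx : x ∈ V) (hn : x ∉ V.nonunits) :
    x⁻¹ ∈ V := by
  rcases V.mem_or_inv_mem x⁻¹ with h | h
  · exact h
  · by_contra hcon
    apply hn
    rw [ValuationSubring.mem_nonunits_iff_exists_mem_maximalIdeal]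
    refine ⟨hx, ?_⟩
    rw [IsLocalRing.mem_maximalIdeal, mem_nonunits_iff]
    intro hu
    apply hcon
    obtain ⟨w, hw⟩ := hu
    have h1 : ((w⁻¹ : (V)ˣ) : V) * (⟨x, hx⟩ : V) = 1 := by
      rw [← hw]
      exact_mod_cast w.inv_mul
    have h2 : ((((w⁻¹ : (V)ˣ) : V) : E)) * x = 1 := by
      have := congrArg Subtype.val h1
      simpa using this
    have hx0 : x ≠ 0 := by
      rintro rfl
      simp at h2
    have : x⁻¹ = (((w⁻¹ : (V)ˣ) : V) : E) := by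
      field_simp
      rw [mul_comm]
      exact h2.symm
    rw [this]
    exact ((w⁻¹ : (V)ˣ) : V).2

/-- a unit of a valuation ring is not in the maximal ideal -/
theorem nl_not_mem_nonunits {V : ValuationSubring E} {x : E} (hx : x ≠ 0) (hi : x⁻¹ ∈ V) :
    x ∉ V.nonunits := by
  intro h
  rw [ValuationSubring.mem_nonunits_iff] at h
  have h1 : V.valuation x⁻¹ ≤ 1 := (ValuationSubring.valuation_le_one_iff _ _).2 hi
  have h2 : V.valuation (x * x⁻¹) < 1 := by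
    rw [map_mul]
    calc V.valuation x * V.valuation x⁻¹ ≤ V.valuation x * 1 := by gcongr
      _ < 1 := by rwa [mul_one]
  rw [mul_inv_cancel₀ hx, map_one] at h2
  exact lt_irrefl _ h2

/-- the maximal ideal of a valuation ring absorbs multiplication -/
theorem nl_mul_mem_nonunits {V : ValuationSubring E} {x z : E} (hx : x ∈ V)
    (hz : z ∈ V.nonunits) : x * z ∈ V.nonunits := by
  rw [ValuationSubring.mem_nonunits_iff] at hz ⊢
  have h1 : V.valuation x ≤ 1 := (ValuationSubring.valuation_le_one_iff _ _).2 hx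
  rw [map_mul]
  calc V.valuation x * V.valuation z ≤ 1 * V.valuation z := by gcongr
    _ < 1 := by rwa [one_mul]

/-- integer powers of a unit of a valuation ring -/
theorem nl_zpow_mem {V : ValuationSubring E} {x : E} (hx : x ∈ V) (hi : x⁻¹ ∈ V) (a : ℤ) :
    x ^ a ∈ V := by
  rcases Int.le_total 0 a with h | h
  · obtain ⟨n, rfl⟩ := Int.eq_ofNat_of_zero_le h
    rw [zpow_natCast]
    exact pow_mem hx n
  · obtain ⟨n, hn⟩ := Int.eq_ofNat_of_zero_le (neg_nonneg.mpr h)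
    have : a = -(n : ℤ) := by omega
    rw [this, zpow_neg, zpow_natCast, ← inv_pow]
    exact pow_mem hi n

end Basic

variable {ϖ : A} {y : E} {𝔪 : Ideal (chartClosure A E y)} {Voo V0 : ValuationSubring E}

namespace NodeChart

/-- the symmetry `∞ ↔ 0` -/
theorem swap (h : NodeChart ϖ y 𝔪 Voo V0) : NodeChart ϖ y 𝔪 V0 Voo where
  inj := h.inj
  irr := h.irr
  trans := h.trans
  fd := h.fd
  max := h.max
  mem := h.mem
  gauss_oo := h.gauss_zero
  gauss_zero := h.gauss_oo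
  gauss_inf := fun z h1 h2 => h.gauss_inf z h2 h1
  thru_oo := h.thru_zero
  thru_zero := h.thru_oo

/-- `B ⊆ V_∞` -/
theorem mem_oo (h : NodeChart ϖ y 𝔪 Voo V0) (b : chartClosure A E y) : (b : E) ∈ Voo :=
  h.gauss_oo _ ((Fermat.Agent.H89.gaussClosureStatement A E h.inj ϖ h.irr y h.trans).1 _ b.2)

/-- `B ⊆ V_0` -/
theorem mem_zero (h : NodeChart ϖ y 𝔪 Voo V0) (b : chartClosure A E y) : (b : E) ∈ V0 :=
  h.swap.mem_oo b

/-- elements of `B ∖ 𝔪` are units of `V_∞` -/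
theorem inv_mem_oo (h : NodeChart ϖ y 𝔪 Voo V0) {b : chartClosure A E y} (hb : b ∉ 𝔪) :
    (b : E)⁻¹ ∈ Voo :=
  nl_inv_mem (h.mem_oo b) (fun hn => hb (h.thru_oo b hn))

/-- elements of `B ∖ 𝔪` are units of `V_0` -/
theorem inv_mem_zero (h : NodeChart ϖ y 𝔪 Voo V0) {b : chartClosure A E y}
    (hb : b ∉ 𝔪) : (b : E)⁻¹ ∈ V0 :=
  h.swap.inv_mem_oo hb

theorem coe_ne_zero (h : NodeChart ϖ y 𝔪 Voo V0) {b : chartClosure A E y}
    (hb : b ∉ 𝔪) : (b : E) ≠ 0 := by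
  intro h0
  apply hb
  have : b = 0 := Subtype.ext h0
  rw [this]
  exact 𝔪.zero_mem

/-- `B ⊆ V` for a place `V` centred at `𝔪` -/
theorem mem_of_centred (h : NodeChart ϖ y 𝔪 Voo V0) {V : ValuationSubring E}
    (hV : CentredAt A E y 𝔪 V) (b : chartClosure A E y) : (b : E) ∈ V := by
  obtain ⟨⟨⟨-, -, hA⟩, hy⟩, -⟩ := hV
  have hle : (chartRing A E y).toSubring ≤ V.toSubring := by
    have : chartRing A E y = Algebra.adjoin A {y} := rfl
    intro z hz
    have hz' : z ∈ Algebra.adjoin A ({y} : Set E) := hz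
    refine Algebra.adjoin_induction (p := fun z _ => z ∈ V.toSubring) ?_ ?_ ?_ ?_ hz'
    · intro x hx
      rw [Set.mem_singleton_iff] at hx
      rw [hx]
      exact hy
    · intro r
      by_cases hr : r = 0
      · rw [hr, map_zero]
        exact V.zero_mem
      · exact (hA r hr).1
    · intro x z _ _ hx hz
      exact V.add_mem _ _ hx hz
    · intro x z _ _ hx hz
      exact V.mul_mem _ _ hx hz
  have hle' : (chartRing A E y).toSubring ≤ V.valuation.integer := by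
    intro z hz
    rw [Valuation.mem_integer_iff, ValuationSubring.valuation_le_one_iff]
    exact hle hz
  have hb : IsIntegral (chartRing A E y) (b : E) := b.2
  have hb' : IsIntegral V.valuation.integer (b : E) := by
    obtain ⟨p, hp, hpb⟩ := hb
    refine ⟨p.map (Subring.inclusion hle'), hp.map _, ?_⟩
    rw [Polynomial.eval₂_map]
    exact hpb
  have := (Valuation.integer.integers V.valuation).mem_of_integral hb'
  rw [Valuation.mem_integer_iff, ValuationSubring.valuation_le_one_iff] at this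
  exact this

/-- elements of `B ∖ 𝔪` are units of a place centred at `𝔪` -/
theorem inv_mem_of_centred (h : NodeChart ϖ y 𝔪 Voo V0) {V : ValuationSubring E}
    (hV : CentredAt A E y 𝔪 V) {b : chartClosure A E y} (hb : b ∉ 𝔪) : (b : E)⁻¹ ∈ V :=
  nl_inv_mem (h.mem_of_centred hV b) (fun hn => hb (hV.2 b hn))

/-- **Hartogs at the node**: an element of `V_∞ ∩ V_0` without pole centred at `𝔪` lies in
`B_𝔪`. -/
theorem hartogs (h : NodeChart ϖ y 𝔪 Voo V0) (z : E) (hoo : z ∈ Voo) (h0 : z ∈ V0)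
    (hV : ∀ V : ValuationSubring E, CentredAt A E y 𝔪 V → z ∈ V) :
    ∃ b : chartClosure A E y, b ∉ 𝔪 ∧ (b : E) * z ∈ chartClosure A E y :=
  Fermat.Agent.H4.SS.localHartogs A E h.inj ϖ h.irr y h.trans h.fd 𝔪 h.max h.mem z
    (h.gauss_inf z hoo h0) hV

/-- **Hartogs at the node, value form**: an element of `V_∞ ∩ V_0` without pole centred at `𝔪`
is `β / b` with `b ∈ B ∖ 𝔪`, `β ∈ B`; and `β ∈ 𝔪` if it has a zero centred at `𝔪`. -/
theorem hartogs_value (h : NodeChart ϖ y 𝔪 Voo V0) (z : E) (hoo : z ∈ Voo) (h0 : z ∈ V0)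
    (hV : ∀ V : ValuationSubring E, CentredAt A E y 𝔪 V → z ∈ V) :
    ∃ b β : chartClosure A E y, b ∉ 𝔪 ∧ (b : E) * z = (β : E) ∧
      ((∃ V : ValuationSubring E, CentredAt A E y 𝔪 V ∧ z ∈ V.nonunits) → β ∈ 𝔪) := by
  obtain ⟨b, hb, hbz⟩ := h.hartogs z hoo h0 hV
  refine ⟨b, ⟨_, hbz⟩, hb, rfl, ?_⟩
  rintro ⟨V, hVc, hz⟩
  exact hVc.2 ⟨_, hbz⟩ (nl_mul_mem_nonunits (h.mem_of_centred hVc b) hz)

/-- **(M4), gluing at the node.**  A unit of `V_∞` and of `V_0` without zero or pole centred at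
`𝔪` is a unit of `B_𝔪`. -/
theorem glue (h : NodeChart ϖ y 𝔪 Voo V0) {u : E} (hu0 : u ≠ 0)
    (hoo : u ∈ Voo) (hoo' : u⁻¹ ∈ Voo) (h0 : u ∈ V0) (h0' : u⁻¹ ∈ V0)
    (hV : ∀ V : ValuationSubring E, CentredAt A E y 𝔪 V → u ∈ V ∧ u⁻¹ ∈ V) :
    ∃ b β : chartClosure A E y, b ∉ 𝔪 ∧ β ∉ 𝔪 ∧ (b : E) * u = (β : E) := by
  haveI := h.max.isPrime
  obtain ⟨b, hb, hbz⟩ := h.hartogs u hoo h0 (fun V hVc => (hV V hVc).1)
  obtain ⟨b', hb', hbz'⟩ := h.hartogs u⁻¹ hoo' h0' (fun V hVc => (hV V hVc).2)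
  refine ⟨b, ⟨_, hbz⟩, hb, ?_, rfl⟩
  intro hβ
  have e : (⟨_, hbz⟩ : chartClosure A E y) * ⟨_, hbz'⟩ = b * b' := by
    apply Subtype.ext
    push_cast
    field_simp
  have hmem : b * b' ∈ 𝔪 := by
    rw [← e]
    exact 𝔪.mul_mem_right _ hβ
  rcases (Ideal.IsPrime.mem_or_mem inferInstance hmem) with h1 | h1
  · exact hb h1
  · exact hb' h1

/-- **(M4), value form.**  In the situation of `glue`, `u ≡ β / b` modulo the maximal ideals of
`V_∞` and of `V_0` (trivially: `u = β / b`), with `b, β ∈ B ∖ 𝔪`; for ANY other representation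
`t u ≡ s` modulo `𝔪_{V_∞}` with `t ∉ 𝔪` one has `s b - t β ∈ 𝔪` (the value at the node is well
defined and is the same on both branches). -/
theorem glue_value (h : NodeChart ϖ y 𝔪 Voo V0) {u : E}
    (b β s t : chartClosure A E y) (hbu : (b : E) * u = (β : E))
    (hst : (t : E) * u - (s : E) ∈ Voo.nonunits) : s * b - t * β ∈ 𝔪 := by
  apply h.thru_oo
  have e : ((s * b - t * β : chartClosure A E y) : E) = -((b : E) * ((t : E) * u - (s : E))) := by
    push_cast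
    rw [← hbu]
    ring
  rw [e, ValuationSubring.mem_nonunits_iff, Valuation.map_neg,
    ← ValuationSubring.mem_nonunits_iff]
  exact nl_mul_mem_nonunits (h.mem_oo b) hst

end NodeChart

variable {q₀ : A} {X Y : chartClosure A E y}

namespace NodeLocal

/-- the symmetry `∞ ↔ 0` -/
theorem swap (h : NodeLocal ϖ y 𝔪 Voo V0 q₀ X Y) : NodeLocal ϖ y 𝔪 V0 Voo q₀ Y X where
  toNodeChart := h.toNodeChart.swap
  q_ne := h.q_ne
  rel := by
    obtain ⟨d, ψ, hd, hψ, hr⟩ := h.rel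
    exact ⟨d, ψ, hd, hψ, by rw [mul_comm Y X]; exact hr⟩
  Y_unit_oo := h.X_unit_zero
  X_unit_zero := h.Y_unit_oo


/-- the relation `d X Y = q₀ ψ` in `E` -/
theorem rel_coe (h : NodeLocal ϖ y 𝔪 Voo V0 q₀ X Y) :
    ∃ d ψ : chartClosure A E y, d ∉ 𝔪 ∧ ψ ∉ 𝔪 ∧
      (d : E) * ((X : E) * (Y : E)) = algebraMap A E q₀ * (ψ : E) := by
  obtain ⟨d, ψ, hd, hψ, hr⟩ := h.rel
  refine ⟨d, ψ, hd, hψ, ?_⟩
  have := congrArg (Subtype.val : chartClosure A E y → E) hr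
  simpa using this

theorem q_coe_ne (h : NodeLocal ϖ y 𝔪 Voo V0 q₀ X Y) : algebraMap A E q₀ ≠ 0 := by
  intro h0
  exact h.q_ne (h.inj (by rw [h0, map_zero]))

theorem X_ne (h : NodeLocal ϖ y 𝔪 Voo V0 q₀ X Y) : (X : E) ≠ 0 := by
  obtain ⟨d, ψ, hd, hψ, hr⟩ := h.rel_coe
  intro h0
  rw [h0, zero_mul, mul_zero] at hr
  exact mul_ne_zero h.q_coe_ne (h.coe_ne_zero hψ) hr.symm

theorem Y_ne (h : NodeLocal ϖ y 𝔪 Voo V0 q₀ X Y) : (Y : E) ≠ 0 := h.swap.X_ne

/-- `q₀ / Y` is a unit of `V_0` -/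
theorem q_div_Y_mem (h : NodeLocal ϖ y 𝔪 Voo V0 q₀ X Y) :
    algebraMap A E q₀ * (Y : E)⁻¹ ∈ V0 ∧ (algebraMap A E q₀ * (Y : E)⁻¹)⁻¹ ∈ V0 := by
  obtain ⟨d, ψ, hd, hψ, hr⟩ := h.rel_coe
  have hψ0 := h.coe_ne_zero hψ
  have hd0 := h.coe_ne_zero hd
  have hX0 := h.X_ne
  have hY0 := h.Y_ne
  have hq0 := h.q_coe_ne
  have e1 : algebraMap A E q₀ * (Y : E)⁻¹ = (d : E) * (X : E) * (ψ : E)⁻¹ := by
    field_simp
    linear_combination -hr
  have e2 : (algebraMap A E q₀ * (Y : E)⁻¹)⁻¹ = (ψ : E) * (d : E)⁻¹ * (X : E)⁻¹ := by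
    rw [e1]
    field_simp
  constructor
  · rw [e1]
    exact V0.mul_mem _ _ (V0.mul_mem _ _ (h.mem_zero d) (h.mem_zero X)) (h.inv_mem_zero hψ)
  · rw [e2]
    exact V0.mul_mem _ _ (V0.mul_mem _ _ (h.mem_zero ψ) (h.inv_mem_zero hd)) h.X_unit_zero

/-- `Y` is a unit of every place centred at `𝔪` -/
theorem Y_inv_mem_of_centred (h : NodeLocal ϖ y 𝔪 Voo V0 q₀ X Y) {V : ValuationSubring E}
    (hV : CentredAt A E y 𝔪 V) : (Y : E)⁻¹ ∈ V := by
  obtain ⟨d, ψ, hd, hψ, hr⟩ := h.rel_coe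
  have hψ0 := h.coe_ne_zero hψ
  have hd0 := h.coe_ne_zero hd
  have hX0 := h.X_ne
  have hY0 := h.Y_ne
  have hq0 := h.q_coe_ne
  have e1 : (Y : E)⁻¹ = (d : E) * (X : E) * ((algebraMap A E q₀)⁻¹ * (ψ : E)⁻¹) := by
    field_simp
    linear_combination -hr
  rw [e1]
  have hq : (algebraMap A E q₀)⁻¹ ∈ V := (hV.1.1.2.2 q₀ h.q_ne).2
  exact V.mul_mem _ _ (V.mul_mem _ _ (h.mem_of_centred hV d) (h.mem_of_centred hV X))
    (V.mul_mem _ _ hq (h.inv_mem_of_centred hV hψ))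

/-- the normalised function `u Y^(-a)` of `OrdAtNode` -/
theorem ord_aux (h : NodeLocal ϖ y 𝔪 Voo V0 q₀ X Y) {u : E} {a : ℤ}
    (ha : OrdAtNode y 𝔪 Voo Y u a) (b : chartClosure A E y) (hb : b ∉ 𝔪)
    (β : chartClosure A E y) (hβ : (b : E) * (u * (Y : E) ^ (-a)) = (β : E)) : β ∉ 𝔪 := by
  obtain ⟨s, t, hs, ht, hn⟩ := ha
  haveI := h.max.isPrime
  intro hβm
  -- `b n = t β - b s ∈ B ∩ 𝔪_{V_∞} ⊆ 𝔪`
  have e : ((t * β - b * s : chartClosure A E y) : E) =
      (b : E) * ((t : E) * (u * (Y : E) ^ (-a)) - (s : E)) := by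
    push_cast
    rw [← hβ]
    ring
  have hmem : (t * β - b * s : chartClosure A E y) ∈ 𝔪 := by
    apply h.thru_oo
    rw [e]
    exact nl_mul_mem_nonunits (h.mem_oo b) hn
  have hbs : b * s ∈ 𝔪 := by
    have h1 : t * β ∈ 𝔪 := 𝔪.mul_mem_left t hβm
    have h2 : b * s = t * β - (t * β - b * s) := by ring
    rw [h2]
    exact 𝔪.sub_mem h1 hmem
  rcases (Ideal.IsPrime.mem_or_mem inferInstance hbs) with h1 | h1
  · exact hb h1
  · exact hs h1

/-- in `OrdAtNode` the function is nonzero -/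
theorem ord_ne_zero (h : NodeLocal ϖ y 𝔪 Voo V0 q₀ X Y) {u : E} {a : ℤ}
    (ha : OrdAtNode y 𝔪 Voo Y u a) : u ≠ 0 := by
  obtain ⟨s, t, hs, ht, hn⟩ := ha
  rintro rfl
  apply hs
  apply h.thru_oo
  have : (s : E) = -((t : E) * (0 * (Y : E) ^ (-a)) - (s : E)) := by ring
  rw [this]
  rw [ValuationSubring.mem_nonunits_iff] at hn ⊢
  rwa [Valuation.map_neg]

/-- the key step of the slope inequality: `u Y^(-a)` is not in the maximal ideal of `V_0` -/
theorem not_mem_nonunits (h : NodeLocal ϖ y 𝔪 Voo V0 q₀ X Y) {u : E} {a : ℤ}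
    (hu : u ∈ Voo) (ha : OrdAtNode y 𝔪 Voo Y u a)
    (hpole : ∀ V : ValuationSubring E, CentredAt A E y 𝔪 V → u ∈ V) :
    u * (Y : E) ^ (-a) ∉ V0.nonunits := by
  intro hcon
  have hoo : u * (Y : E) ^ (-a) ∈ Voo :=
    Voo.mul_mem _ _ hu (nl_zpow_mem (h.mem_oo Y) h.Y_unit_oo _)
  have h0 : u * (Y : E) ^ (-a) ∈ V0 := ValuationSubring.nonunits_subset hcon
  have hV : ∀ V : ValuationSubring E, CentredAt A E y 𝔪 V → u * (Y : E) ^ (-a) ∈ V :=
    fun V hV => V.mul_mem _ _ (hpole V hV)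
      (nl_zpow_mem (h.mem_of_centred hV Y) (h.Y_inv_mem_of_centred hV) _)
  obtain ⟨b, hb, hbz⟩ := h.hartogs _ hoo h0 hV
  have hβ := h.ord_aux ha b hb ⟨_, hbz⟩ rfl
  apply hβ
  apply h.thru_zero
  exact nl_mul_mem_nonunits (h.mem_zero b) hcon

/-- **(M3), slope inequality at the node.**  `u` a function in `V_∞` of order `a` at the node on
the branch `C_∞`, without pole centred at `𝔪`, and `c u` a unit of `V_0`: then
`q₀ ^ a * c ∈ V_0`. -/
theorem node_le (h : NodeLocal ϖ y 𝔪 Voo V0 q₀ X Y) {u c : E} {a : ℤ}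
    (hu : u ∈ Voo) (ha : OrdAtNode y 𝔪 Voo Y u a) (hcu : c * u ∈ V0)
    (hpole : ∀ V : ValuationSubring E, CentredAt A E y 𝔪 V → u ∈ V) :
    algebraMap A E q₀ ^ a * c ∈ V0 := by
  have hu0 := h.ord_ne_zero ha
  have hY0 := h.Y_ne
  have hn := h.not_mem_nonunits hu ha hpole
  have hu'0 : u * (Y : E) ^ (-a) ≠ 0 := mul_ne_zero hu0 (zpow_ne_zero _ hY0)
  have hinv : (u * (Y : E) ^ (-a))⁻¹ ∈ V0 := by
    rcases V0.mem_or_inv_mem (u * (Y : E) ^ (-a)) with h1 | h1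
    · exact nl_inv_mem h1 hn
    · exact h1
  obtain ⟨hq1, hq2⟩ := h.q_div_Y_mem
  have e : algebraMap A E q₀ ^ a * c =
      c * u * (u * (Y : E) ^ (-a))⁻¹ * (algebraMap A E q₀ * (Y : E)⁻¹) ^ a := by
    rw [mul_zpow, mul_inv, inv_zpow, zpow_neg]
    field_simp
  rw [e]
  exact V0.mul_mem _ _ (V0.mul_mem _ _ hcu hinv) (nl_zpow_mem hq1 hq2 a)

/-- **(M3), strict slope inequality.**  If moreover a zero of `u` is centred at `𝔪`, then
`q₀ ^ a * c` lies in the maximal ideal of `V_0`. -/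
theorem node_lt (h : NodeLocal ϖ y 𝔪 Voo V0 q₀ X Y) {u c : E} {a : ℤ}
    (hu : u ∈ Voo) (ha : OrdAtNode y 𝔪 Voo Y u a) (hcu : c * u ∈ V0)
    (hpole : ∀ V : ValuationSubring E, CentredAt A E y 𝔪 V → u ∈ V)
    (hzero : ∃ V : ValuationSubring E, CentredAt A E y 𝔪 V ∧ u ∈ V.nonunits) :
    algebraMap A E q₀ ^ a * c ∈ V0.nonunits := by
  have hle := h.node_le hu ha hcu hpole
  by_contra hcon
  have hc : c ≠ 0 := by
    rintro rfl
    apply hcon
    rw [mul_zero, ValuationSubring.mem_nonunits_iff, map_zero]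
    exact zero_lt_one
  have hu0 := h.ord_ne_zero ha
  have hY0 := h.Y_ne
  have hq0 := h.q_coe_ne
  have hxinv : (algebraMap A E q₀ ^ a * c)⁻¹ ∈ V0 := nl_inv_mem hle hcon
  obtain ⟨hq1, hq2⟩ := h.q_div_Y_mem
  -- `u' = u Y^(-a)` lies in `V_0`
  have e : u * (Y : E) ^ (-a) =
      c * u * (algebraMap A E q₀ * (Y : E)⁻¹) ^ a * (algebraMap A E q₀ ^ a * c)⁻¹ := by
    rw [mul_zpow, inv_zpow, zpow_neg]
    field_simp
  have h0 : u * (Y : E) ^ (-a) ∈ V0 := by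
    rw [e]
    exact V0.mul_mem _ _ (V0.mul_mem _ _ hcu (nl_zpow_mem hq1 hq2 a)) hxinv
  have hoo : u * (Y : E) ^ (-a) ∈ Voo :=
    Voo.mul_mem _ _ hu (nl_zpow_mem (h.mem_oo Y) h.Y_unit_oo _)
  have hV : ∀ V : ValuationSubring E, CentredAt A E y 𝔪 V → u * (Y : E) ^ (-a) ∈ V :=
    fun V hV => V.mul_mem _ _ (hpole V hV)
      (nl_zpow_mem (h.mem_of_centred hV Y) (h.Y_inv_mem_of_centred hV) _)
  obtain ⟨b, hb, hbz⟩ := h.hartogs _ hoo h0 hV
  have hβ := h.ord_aux ha b hb ⟨_, hbz⟩ rfl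
  obtain ⟨V, hVc, hVu⟩ := hzero
  -- `u' = β / b` is a unit of `V`, but `u = u' Y^a` is not
  have hb0 := h.coe_ne_zero hb
  have hu' : u * (Y : E) ^ (-a) ∈ V.nonunits := by
    rw [mul_comm]
    exact nl_mul_mem_nonunits
      (nl_zpow_mem (h.mem_of_centred hVc Y) (h.Y_inv_mem_of_centred hVc) _) hVu
  have hβV : ((b : E) * (u * (Y : E) ^ (-a))) ∈ V.nonunits :=
    nl_mul_mem_nonunits (h.mem_of_centred hVc b) hu'
  exact hβ (hVc.2 ⟨_, hbz⟩ hβV)

end NodeLocal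

end Fermat.Agent.H3.ORD

end
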